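import Fermat.Agent.S24.Cards

set_option autoImplicit false

/-!
# T24 = the twin of S24 for the groups `Gam N = {γ ∈ Γ₀(N) : d ≡ ± 1 mod D}`, `D ∣ N`

The `Γ₁`-part `D` of the level is carried by the class `Cond N` (data!), so that all statements keep the shape of S24
(`(N : ℕ) [NeZero N]` becomes `(N : ℕ) [NeZero N] [Cond N]`, `Gamma0 N` becomes `Gam N`), and `Cond (N * ℓ)` is found by instance search.

New generators (besides the `j(q^d)`, `d ∣ N`): `t_b(q^e)`, `b ∈ ℤ/D`, `e D ∣ N`, where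
`t_b = T_b E₄² / Δ`, `T_b = c₀(b) + ∑_n (∑_{m ∣ n, m ≡ ± b} m³) q^n = (1/D) ∑_a ζ^{-ab} G_{(0,a)}`, and
`G_v(z) = (D⁴ 3!/(2π i)⁴) ∑_{(c,d) ≡ v mod D} (c z + d)^{-4}` (weight `4`, level `Γ(D)`, `G_v|γ = G_{vγ}`).
-/

open UpperHalfPlane ModularForm EisensteinSeries CongruenceSubgroup
open scoped MatrixGroups Manifold Real

namespace Fermat.Agent.T24

open Fermat.Agent.S24

/-- the `Γ₁`-part of the level. -/
class Cond (N : ℕ) where
  D : ℕ
  dvd : D ∣ N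

instance Cond.mul (N ℓ : ℕ) [c : Cond N] : Cond (N * ℓ) := ⟨c.D, Dvd.dvd.mul_right c.dvd ℓ⟩

@[simp] theorem Cond.D_mul (N ℓ : ℕ) [Cond N] : Cond.D (N * ℓ) = Cond.D N := rfl

instance Cond.neZero (N : ℕ) [NeZero N] [Cond N] : NeZero (Cond.D N) :=
  ⟨fun h => NeZero.ne N (by have := Cond.dvd (N := N); rw [h] at this; exact Nat.eq_zero_of_zero_dvd this)⟩

/-! ### the functions -/

/-- reduction of an integral vector. -/
def redV (D : ℕ) (x : Fin 2 → ℤ) : Fin 2 → ZMod D := fun i => ((x i : ℤ) : ZMod D)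

/-- `∑_{(c,d) ≡ v} (c z + d)^{-4}` (the term `(0,0)` is `0`). -/
noncomputable def G4 (D : ℕ) (v : Fin 2 → ZMod D) (z : ℍ) : ℂ :=
  ∑' x : {x : Fin 2 → ℤ // redV D x = v}, eisSummand 4 x.1 z

/-- the normalised series `G_v`. -/
noncomputable def G4n (D : ℕ) (v : Fin 2 → ZMod D) (z : ℍ) : ℂ :=
  ((D : ℂ) ^ 4 * 6 / (2 * π) ^ 4) * G4 D v z

/-- `y_v = G_v E₄² / Δ`. -/
noncomputable def yv (D : ℕ) (v : Fin 2 → ZMod D) (z : ℍ) : ℂ :=
  G4n D v z * E₄ z ^ 2 / discriminant z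

/-- `t_b = (1/D) ∑_a ζ^{-ab} y_{(0,a)}`. -/
noncomputable def tb (D : ℕ) [NeZero D] (b : ZMod D) (z : ℍ) : ℂ :=
  (1 / (D : ℂ)) * ∑ a : ZMod D, ((rootU D (-((a.val : ℤ) * (b.val : ℤ))) : ℂˣ) : ℂ) * yv D ![0, a] z

/-- `z ↦ t_b (e z)`. -/
noncomputable def te (D : ℕ) [NeZero D] (e : ℕ) (b : ZMod D) : ℍ → ℂ := pre e 0 1 (tb D b)

/-! ### the series -/

/-- `∑_{m ∣ n, m ≡ b} m³ + ∑_{m ∣ n, m ≡ -b} m³`. -/
def sig (D : ℕ) (b : ZMod D) (n : ℕ) : ℕ :=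
  ∑ m ∈ n.divisors, ((if (m : ZMod D) = b then m ^ 3 else 0) + (if (m : ZMod D) = -b then m ^ 3 else 0))

/-- the constant term `- D³ B₄(b/D) / 4`. -/
noncomputable def c0 (D : ℕ) (b : ZMod D) : ℚ :=
  -((D : ℚ) ^ 3 / 4) * (Polynomial.bernoulli 4).eval ((b.val : ℚ) / D)

/-- `T_b`. -/
noncomputable def tNum (D : ℕ) (b : ZMod D) : PowerSeries ℚ :=
  PowerSeries.mk fun n => if n = 0 then c0 D b else (sig D b n : ℚ)

/-- `t_b = T_b E₄² / Δ ∈ ℚ((q))`. -/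
noncomputable def Tq (D : ℕ) (b : ZMod D) : LaurentSeries ℚ :=
  HahnSeries.single (-1 : ℤ) 1 * HahnSeries.ofPowerSeries ℤ ℚ
    (tNum D b * (ModularCurve.eisenstein4 ^ 2 * ModularCurve.dedekindEtaUnitInv).map (Int.castRingHom ℚ))

/-! ### the group -/

theorem gam_lower_left {N : ℕ} [Cond N] {g : SL(2, ℤ)} (hg : g ∈ Gamma0 N) :
    ((g 1 0 : ℤ) : ZMod (Cond.D N)) = 0 := by
  rw [Gamma0_mem, CharP.intCast_eq_zero_iff (ZMod N) N] at hg
  rw [CharP.intCast_eq_zero_iff (ZMod (Cond.D N)) (Cond.D N)]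
  exact (Int.natCast_dvd_natCast.mpr (Cond.dvd (N := N))).trans hg

theorem gam_mul_apply {N : ℕ} [Cond N] {g : SL(2, ℤ)} (hg : g ∈ Gamma0 N) (h : SL(2, ℤ)) :
    (((g * h) 1 1 : ℤ) : ZMod (Cond.D N)) =
      ((g 1 1 : ℤ) : ZMod (Cond.D N)) * ((h 1 1 : ℤ) : ZMod (Cond.D N)) := by
  rw [Matrix.SpecialLinearGroup.coe_mul, Matrix.mul_apply, Fin.sum_univ_two]
  push_cast
  rw [gam_lower_left hg, zero_mul, zero_add]

theorem gam_diag {N : ℕ} [Cond N] {g : SL(2, ℤ)} (hg : g ∈ Gamma0 N) :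
    ((g 0 0 : ℤ) : ZMod (Cond.D N)) * ((g 1 1 : ℤ) : ZMod (Cond.D N)) = 1 := by
  have h := g.2
  rw [Matrix.det_fin_two] at h
  have h2 := congrArg (Int.cast : ℤ → ZMod (Cond.D N)) h
  push_cast at h2
  rw [gam_lower_left hg, mul_zero, sub_zero] at h2
  exact h2

/-- `{γ ∈ Γ₀(N) : d ≡ ± 1 mod D}`. -/
def Gam (N : ℕ) [Cond N] : Subgroup SL(2, ℤ) where
  carrier := {g | g ∈ Gamma0 N ∧
    (((g 1 1 : ℤ) : ZMod (Cond.D N)) = 1 ∨ ((g 1 1 : ℤ) : ZMod (Cond.D N)) = -1)}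
  mul_mem' := by
    rintro g h ⟨hg, hg'⟩ ⟨hh, hh'⟩
    refine ⟨mul_mem hg hh, ?_⟩
    rw [gam_mul_apply hg]
    rcases hg' with e | e <;> rcases hh' with e' | e' <;> rw [e, e'] <;> simp
  one_mem' := by
    refine ⟨one_mem _, Or.inl ?_⟩
    simp
  inv_mem' := by
    rintro g ⟨hg, hg'⟩
    refine ⟨inv_mem hg, ?_⟩
    have h1 : (g⁻¹ : SL(2, ℤ)) 1 1 = g 0 0 := by
      rw [Matrix.SpecialLinearGroup.SL2_inv_expl]
      rfl
    rw [h1]
    have h2 := gam_diag hg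
    rcases hg' with e | e <;> rw [e] at h2
    · left; simpa using h2
    · right
      have : ((g 0 0 : ℤ) : ZMod (Cond.D N)) = -(((g 0 0 : ℤ) : ZMod (Cond.D N)) * -1) := by ring
      rw [this, h2]

theorem mem_Gam {N : ℕ} [Cond N] {g : SL(2, ℤ)} : g ∈ Gam N ↔ g ∈ Gamma0 N ∧
    (((g 1 1 : ℤ) : ZMod (Cond.D N)) = 1 ∨ ((g 1 1 : ℤ) : ZMod (Cond.D N)) = -1) := Iff.rfl

theorem Gam_le (N : ℕ) [Cond N] : Gam N ≤ Gamma0 N := fun _ h => h.1

/-! ### the ring of functions -/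

/-- generators of `Btil`. -/
def btilGens (N : ℕ) [Cond N] : Set (ℍ → ℂ) :=
  Set.range constK ∪ {f | ∃ (g : SL(2, ℤ)) (d : ℕ), d ∣ N ∧ f = act g (jd d)} ∪
    {f | ∃ (g : SL(2, ℤ)) (e : ℕ) (v : Fin 2 → ZMod (Cond.D N)), e * Cond.D N ∣ N ∧
      f = act g (pre e 0 1 (yv (Cond.D N) v))}

/-- the ring generated over `ℚ̄` by all `SL(2,ℤ)`-conjugates of the `j (d z)`, `d ∣ N`, and of the `y_v (e z)`, `e D ∣ N`. -/
def Btil (N : ℕ) [Cond N] : Subring (ℍ → ℂ) := Subring.closure (btilGens N)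

theorem constK_mem_Btil (N : ℕ) [Cond N] (a : Kb) : constK a ∈ Btil N :=
  Subring.subset_closure (Or.inl (Or.inl ⟨a, rfl⟩))

theorem act_jd_mem_Btil {N d : ℕ} [Cond N] (g : SL(2, ℤ)) (hd : d ∣ N) : act g (jd d) ∈ Btil N :=
  Subring.subset_closure (Or.inl (Or.inr ⟨g, d, hd, rfl⟩))

theorem jd_mem_Btil {N d : ℕ} [Cond N] (hd : d ∣ N) : jd d ∈ Btil N := by
  have := act_jd_mem_Btil (N := N) 1 hd
  rwa [act_one] at this

theorem act_ye_mem_Btil {N e : ℕ} [Cond N] (g : SL(2, ℤ)) (he : e * Cond.D N ∣ N)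
    (v : Fin 2 → ZMod (Cond.D N)) : act g (pre e 0 1 (yv (Cond.D N) v)) ∈ Btil N :=
  Subring.subset_closure (Or.inr ⟨g, e, v, he, rfl⟩)

theorem ye_mem_Btil {N e : ℕ} [Cond N] (he : e * Cond.D N ∣ N) (v : Fin 2 → ZMod (Cond.D N)) :
    pre e 0 1 (yv (Cond.D N) v) ∈ Btil N := by
  have := act_ye_mem_Btil (N := N) 1 he v
  rwa [act_one] at this

theorem act_mem_Btil {N : ℕ} [Cond N] (g : SL(2, ℤ)) {b : ℍ → ℂ} (hb : b ∈ Btil N) :
    act g b ∈ Btil N := by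
  induction hb using Subring.closure_induction with
  | mem x hx =>
    rcases hx with (⟨a, rfl⟩ | ⟨h, d, hd, rfl⟩) | ⟨h, e, v, he, rfl⟩
    · rw [act_constK]; exact constK_mem_Btil N a
    · rw [← act_mul]; exact act_jd_mem_Btil _ hd
    · rw [← act_mul]; exact act_ye_mem_Btil _ he v
  | zero => simp
  | one => simp
  | add x y _ _ hx hy => rw [map_add]; exact add_mem hx hy
  | neg x _ hx => rw [map_neg]; exact neg_mem hx
  | mul x y _ _ hx hy => rw [map_mul]; exact mul_mem hx hy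

/-- the action on `Btil`. -/
noncomputable def actB (N : ℕ) [Cond N] (g : SL(2, ℤ)) : Btil N →+* Btil N :=
  ((act g).comp (Btil N).subtype).codRestrict (Btil N) fun b => act_mem_Btil g b.2

@[simp] theorem coe_actB (N : ℕ) [Cond N] (g : SL(2, ℤ)) (b : Btil N) :
    ((actB N g b : Btil N) : ℍ → ℂ) = act g b := rfl

/-! ### the function field -/

/-- the rational generators. -/
def divisorExpansions (N : ℕ) [Cond N] : Set (LaurentSeries ℚ) :=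
  ModularCurve.divisorExpansions N ∪
    {y | ∃ (e : ℕ) (_ : NeZero e) (b : ZMod (Cond.D N)), e * Cond.D N ∣ N ∧
      y = ModularCurve.qExpand ℚ e (Tq (Cond.D N) b)}

/-- the function field over `ℚ`. -/
noncomputable def modularFunctionFieldFull (N : ℕ) [Cond N] : IntermediateField ℚ (LaurentSeries ℚ) :=
  IntermediateField.adjoin ℚ (divisorExpansions N)

/-- the function field over `ℚ̄`. -/
noncomputable abbrev modularFunctionFieldBar (N : ℕ) [Cond N] : IntermediateField Kb (LaurentSeries Kb) :=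
  ModularCurve.laurentBaseChange Kb (modularFunctionFieldFull N)

/-- the `q`-series `t_b(q^e)` with coefficients in `ℚ̄`. -/
noncomputable def Tser (D : ℕ) (e : ℕ) (b : ZMod D) : LaurentSeries Kb :=
  if h : e = 0 then 0 else
    haveI : NeZero e := ⟨h⟩; ModularCurve.coeffEmb Kb (ModularCurve.qExpand ℚ e (Tq D b))

/-- the generators of the function field. -/
def fGens (N : ℕ) [Cond N] : Set (LaurentSeries Kb) :=
  {y | ∃ d : ℕ, d ∣ N ∧ y = Jser d} ∪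
    {y | ∃ (e : ℕ) (b : ZMod (Cond.D N)), e * Cond.D N ∣ N ∧ y = Tser (Cond.D N) e b}

/-- `ℚ̄[j(q^d), t_b(q^e)]`. -/
noncomputable def A0 (N : ℕ) [Cond N] : Subalgebra Kb (LaurentSeries Kb) :=
  Algebra.adjoin Kb (fGens N)

theorem Jser_mem_A0 {N d : ℕ} [Cond N] (hd : d ∣ N) : Jser d ∈ A0 N :=
  Algebra.subset_adjoin (Or.inl ⟨d, hd, rfl⟩)

theorem Tser_mem_A0 {N e : ℕ} [Cond N] (he : e * Cond.D N ∣ N) (b : ZMod (Cond.D N)) :
    Tser (Cond.D N) e b ∈ A0 N :=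
  Algebra.subset_adjoin (Or.inr ⟨e, b, he, rfl⟩)

/-- the function field of `X(Gam N)` over `ℚ̄`. -/
abbrev FN (N : ℕ) [Cond N] : Type := ↥(modularFunctionFieldBar N)

end Fermat.Agent.T24
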