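import Fermat.Agent.S48.T24.Defs
import Fermat.Prelude.Def_ModularCurve_X0ModL

set_option autoImplicit false

/-!
# T24 : the `K`-forms of the function field (twins of `ModularCurve.divisorExpansionsC`, `modularFunctionFieldFullC`)

`K` is a field of characteristic `0` (the series `t_b` have rational, not integral, coefficients).
-/

noncomputable section

namespace Fermat.Agent.T24

open Fermat.Agent.S24

/-- `t_b(q^e)` with coefficients in `K`. -/
def TserC (K : Type*) [Field K] [Algebra ℚ K] (D : ℕ) (e : ℕ) [NeZero e] (b : ZMod D) : LaurentSeries K :=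
  ModularCurve.qExpand K e (ModularCurve.coeffEmb K (Tq D b))

/-- the generators over `K`. -/
def divisorExpansionsC (K : Type*) [Field K] [Algebra ℚ K] (N : ℕ) [Cond N] : Set (LaurentSeries K) :=
  ModularCurve.divisorExpansionsC K N ∪
    {y | ∃ (e : ℕ) (_ : NeZero e) (b : ZMod (Cond.D N)), e * Cond.D N ∣ N ∧ y = TserC K (Cond.D N) e b}

/-- the function field over `K`. -/
def modularFunctionFieldFullC (K : Type*) [Field K] [Algebra ℚ K] (N : ℕ) [Cond N] :
    IntermediateField K (LaurentSeries K) :=
  IntermediateField.adjoin K (divisorExpansionsC K N)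

theorem mem_divisorExpansionsC_J (K : Type*) [Field K] [Algebra ℚ K] (N : ℕ) [Cond N] {d : ℕ} [NeZero d]
    (hd : d ∣ N) : ModularCurve.qExpand K d (ModularCurve.jqModC K) ∈ divisorExpansionsC K N :=
  Or.inl (ModularCurve.mem_divisorExpansionsC K N hd)

theorem mem_divisorExpansionsC_T (K : Type*) [Field K] [Algebra ℚ K] (N : ℕ) [Cond N] {e : ℕ} [NeZero e]
    (he : e * Cond.D N ∣ N) (b : ZMod (Cond.D N)) : TserC K (Cond.D N) e b ∈ divisorExpansionsC K N :=
  Or.inr ⟨e, ‹_›, b, he, rfl⟩

theorem jqModCd_mem_full (K : Type*) [Field K] [Algebra ℚ K] (N : ℕ) [Cond N] {d : ℕ} [NeZero d]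
    (hd : d ∣ N) : ModularCurve.qExpand K d (ModularCurve.jqModC K) ∈ modularFunctionFieldFullC K N :=
  IntermediateField.subset_adjoin K _ (mem_divisorExpansionsC_J K N hd)

theorem TserC_mem_full (K : Type*) [Field K] [Algebra ℚ K] (N : ℕ) [Cond N] {e : ℕ} [NeZero e]
    (he : e * Cond.D N ∣ N) (b : ZMod (Cond.D N)) : TserC K (Cond.D N) e b ∈ modularFunctionFieldFullC K N :=
  IntermediateField.subset_adjoin K _ (mem_divisorExpansionsC_T K N he b)

theorem jqModC_mem_full (K : Type*) [Field K] [Algebra ℚ K] (N : ℕ) [Cond N] :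
    ModularCurve.jqModC K ∈ modularFunctionFieldFullC K N := by
  simpa [ModularCurve.qExpand_one_apply] using jqModCd_mem_full K N (one_dvd N)

/-- the function field of `X₀(N)` is contained in that of `X(Gam N)`. -/
theorem fullC_le (K : Type*) [Field K] [Algebra ℚ K] (N : ℕ) [Cond N] :
    ModularCurve.modularFunctionFieldFullC K N ≤ modularFunctionFieldFullC K N :=
  IntermediateField.adjoin.mono K _ _ Set.subset_union_left

end Fermat.Agent.T24
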