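import Fermat.Agent.S48.T24.Cards
import Fermat.Agent.S48.T24.KDefs
import Fermat.Prelude.Def_ModularCurve_HeckeOperator
import Fermat.Prelude.Def_ModularCurve_X0ModL

set_option autoImplicit false

/-!
# T24: `K`-forms of the function field, degeneracy maps `α`, `β`, diamond automorphisms

* the `K`-forms `divisorExpansionsC K N`, `modularFunctionFieldFullC K N` are in `T24/KDefs.lean`;
* `heckeAlphaBar L N ℓ`, `heckeBetaBar L N ℓ` : twins of the Prelude definitions;
* `diaA N g`, `diaF N g` (`g ∈ Γ₀(N)`) : the automorphism `f ↦ f ∘ g⁻¹` of `A0 N`, `FN N`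
  (`⟨d⟩ f = f ∘ σ_d = diaF N σ_d⁻¹ f`).
-/

open UpperHalfPlane ModularForm EisensteinSeries CongruenceSubgroup IntermediateField
open scoped MatrixGroups Manifold

noncomputable section

namespace Fermat.Agent.T24

open Fermat.Agent.S24 ModularCurve

theorem jqd_mem_full (N : ℕ) [Cond N] {d : ℕ} [NeZero d] (hd : d ∣ N) :
    qExpand ℚ d jq ∈ modularFunctionFieldFull N :=
  subset_adjoin ℚ _ (Or.inl ⟨d, inferInstance, hd, rfl⟩)

theorem tq_mem_full (N : ℕ) [Cond N] {e : ℕ} [NeZero e] (he : e * Cond.D N ∣ N)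
    (b : ZMod (Cond.D N)) : qExpand ℚ e (Tq (Cond.D N) b) ∈ modularFunctionFieldFull N :=
  subset_adjoin ℚ _ (Or.inr ⟨e, inferInstance, b, he, rfl⟩)

theorem full_le (N : ℕ) [Cond N] :
    ModularCurve.modularFunctionFieldFull N ≤ modularFunctionFieldFull N :=
  IntermediateField.adjoin.mono ℚ _ _ Set.subset_union_left

/-! ### degeneracy maps -/

theorem full_degeneracy_le (N ℓ : ℕ) [Cond N] :
    modularFunctionFieldFull N ≤ modularFunctionFieldFull (N * ℓ) := by
  rw [modularFunctionFieldFull, adjoin_le_iff]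
  rintro x (⟨d, hne, hdvd, rfl⟩ | ⟨e, hne, b, he, rfl⟩)
  · haveI := hne
    exact jqd_mem_full (N * ℓ) (Dvd.dvd.mul_right hdvd ℓ)
  · haveI := hne
    exact tq_mem_full (N * ℓ) (e := e) (Dvd.dvd.mul_right he ℓ) b

theorem full_degeneracy_map_le (N ℓ : ℕ) [Cond N] [NeZero ℓ] :
    (modularFunctionFieldFull N).map (qExpandₐ ℓ) ≤ modularFunctionFieldFull (N * ℓ) := by
  rw [modularFunctionFieldFull, adjoin_map, adjoin_le_iff]
  rintro x ⟨y, (⟨d, hne, hdvd, rfl⟩ | ⟨e, hne, b, he, rfl⟩), rfl⟩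
  · haveI := hne
    haveI : NeZero (ℓ * d) := ⟨Nat.mul_ne_zero (NeZero.ne ℓ) (NeZero.ne d)⟩
    show qExpandₐ ℓ (qExpand ℚ d jq) ∈ _
    rw [qExpandₐ_apply, qExpand_qExpand]
    exact jqd_mem_full (N * ℓ) ((mul_dvd_mul_left ℓ hdvd).trans (dvd_of_eq (mul_comm ℓ N)))
  · haveI := hne
    haveI : NeZero (ℓ * e) := ⟨Nat.mul_ne_zero (NeZero.ne ℓ) (NeZero.ne e)⟩
    show qExpandₐ ℓ (qExpand ℚ e (Tq (Cond.D N) b)) ∈ _
    rw [qExpandₐ_apply, qExpand_qExpand]
    refine tq_mem_full (N * ℓ) (e := ℓ * e) ?_ b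
    show ℓ * e * Cond.D N ∣ N * ℓ
    rw [mul_assoc, mul_comm N ℓ]
    exact mul_dvd_mul_left ℓ he

section Bar

variable (L : Type*) [Field L] [Algebra ℚ L]

theorem laurentBaseChange_mono {F₀ F₁ : IntermediateField ℚ (LaurentSeries ℚ)}
    (h : F₀ ≤ F₁) : laurentBaseChange L F₀ ≤ laurentBaseChange L F₁ := by
  rw [laurentBaseChange, IntermediateField.adjoin_le_iff]
  rintro _ ⟨y, hy, rfl⟩
  exact coeffEmb_mem_laurentBaseChange L (h hy)

variable {L} in
theorem qExpand_mem_laurentBaseChange {F₀ : IntermediateField ℚ (LaurentSeries ℚ)} (n : ℕ)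
    [NeZero n] {F₁ : IntermediateField ℚ (LaurentSeries ℚ)} (hF : ∀ y ∈ F₀, qExpand ℚ n y ∈ F₁)
    {x : LaurentSeries L} (hx : x ∈ laurentBaseChange L F₀) :
    qExpand L n x ∈ laurentBaseChange L F₁ := by
  rw [mem_laurentBaseChange_iff] at hx
  induction hx using Subfield.closure_induction with
  | mem y hy =>
      rcases hy with ⟨a, rfl⟩ | ⟨z, hz, rfl⟩
      · rw [algebraMap_laurentSeries_eq_single, qExpand_single, mul_zero,
          ← algebraMap_laurentSeries_eq_single]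
        exact (laurentBaseChange L F₁).algebraMap_mem _
      · rw [coeffEmb, ← coeffMap_qExpand]
        exact coeffEmb_mem_laurentBaseChange L (hF z hz)
  | one => simp
  | add x y _ _ hx hy => simpa using add_mem hx hy
  | neg x _ hx => simpa using neg_mem hx
  | inv x _ hx => simpa using InvMemClass.inv_mem hx
  | mul x y _ _ hx hy => simpa using mul_mem hx hy

variable (N ℓ : ℕ) [Cond N] [NeZero ℓ]

/-- `F_N ⊆ F_{Nℓ}`. -/
def heckeAlphaBar :
    laurentBaseChange L (modularFunctionFieldFull N) →ₐ[L]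
      laurentBaseChange L (modularFunctionFieldFull (N * ℓ)) :=
  IntermediateField.inclusion (laurentBaseChange_mono L (full_degeneracy_le N ℓ))

@[simp]
theorem coe_heckeAlphaBar (x : laurentBaseChange L (modularFunctionFieldFull N)) :
    (heckeAlphaBar L N ℓ x : LaurentSeries L) = (x : LaurentSeries L) :=
  IntermediateField.coe_inclusion _ x

/-- `f(q) ↦ f(q^ℓ)`. -/
def heckeBetaBarRingHom :
    laurentBaseChange L (modularFunctionFieldFull N) →+*
      laurentBaseChange L (modularFunctionFieldFull (N * ℓ)) where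
  toFun x := ⟨qExpand L ℓ (x : LaurentSeries L),
    qExpand_mem_laurentBaseChange ℓ
      (fun y hy => full_degeneracy_map_le N ℓ ⟨y, hy, rfl⟩) x.2⟩
  map_one' := Subtype.ext (map_one (qExpand L ℓ))
  map_mul' _ _ := Subtype.ext (map_mul (qExpand L ℓ) _ _)
  map_zero' := Subtype.ext (map_zero (qExpand L ℓ))
  map_add' _ _ := Subtype.ext (map_add (qExpand L ℓ) _ _)

/-- `f(q) ↦ f(q^ℓ)`. -/
def heckeBetaBar :
    laurentBaseChange L (modularFunctionFieldFull N) →ₐ[L]
      laurentBaseChange L (modularFunctionFieldFull (N * ℓ)) :=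
  { heckeBetaBarRingHom L N ℓ with
    commutes' := fun a => Subtype.ext <| by
      show qExpand L ℓ (algebraMap L (LaurentSeries L) a) = algebraMap L (LaurentSeries L) a
      rw [algebraMap_laurentSeries_eq_single, qExpand_single, mul_zero] }

@[simp]
theorem coe_heckeBetaBar (x : laurentBaseChange L (modularFunctionFieldFull N)) :
    (heckeBetaBar L N ℓ x : LaurentSeries L) = qExpand L ℓ (x : LaurentSeries L) :=
  rfl

end Bar

/-! ### diamonds -/

/-- `act g` preserves the image of `PhiB`. -/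
theorem actB_PhiB_mem_range (N : ℕ) [NeZero N] [Cond N] (g : SL(2, ℤ)) (hg : g ∈ Gamma0 N)
    (a : A0 N) : actB N g (PhiB N a) ∈ (PhiB N).range := by
  obtain ⟨a, ha⟩ := a
  have ha' : a ∈ Algebra.adjoin Kb (fGens N) := ha
  induction ha' using Algebra.adjoin_induction with
  | mem x hx =>
    rcases hx with ⟨d, hd, rfl⟩ | ⟨e, b, he, rfl⟩
    · refine ⟨⟨Jser d, Jser_mem_A0 hd⟩, ?_⟩
      apply Subtype.ext
      rw [coe_actB, PhiB_Jser N hd, act_jd_of_mem_Gamma0 hd g hg]
    · refine ⟨⟨Tser (Cond.D N) e (b * ((g 1 1 : ℤ) : ZMod (Cond.D N))), Tser_mem_A0 he _⟩, ?_⟩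
      apply Subtype.ext
      rw [coe_actB, PhiB_Tser N he, PhiB_Tser N he, act_te he b g hg]
  | algebraMap r =>
    refine ⟨algebraMap Kb (A0 N) r, ?_⟩
    apply Subtype.ext
    have h1 : (⟨algebraMap Kb (LaurentSeries Kb) r, ha⟩ : A0 N) = algebraMap Kb (A0 N) r := rfl
    rw [h1, coe_actB, PhiB_const, act_constK]
  | add x y hx hy ihx ihy =>
    have hx' : x ∈ A0 N := hx
    have hy' : y ∈ A0 N := hy
    have h1 : (⟨x + y, ha⟩ : A0 N) = ⟨x, hx'⟩ + ⟨y, hy'⟩ := rfl
    rw [h1, map_add, map_add]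
    exact add_mem (ihx hx') (ihy hy')
  | mul x y hx hy ihx ihy =>
    have hx' : x ∈ A0 N := hx
    have hy' : y ∈ A0 N := hy
    have h1 : (⟨x * y, ha⟩ : A0 N) = ⟨x, hx'⟩ * ⟨y, hy'⟩ := rfl
    rw [h1, map_mul, map_mul]
    exact mul_mem (ihx hx') (ihy hy')

theorem exists_diaA (N : ℕ) [NeZero N] [Cond N] (g : Gamma0 N) :
    ∃ Φ : A0 N →+* A0 N, ∀ a, PhiB N (Φ a) = actB N g (PhiB N a) :=
  phi_exists_factor (PhiB N) ((actB N g).comp (PhiB N)) (PhiB_injective N)
    (fun a => actB_PhiB_mem_range N g g.2 a)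

/-- `f ↦ f ∘ g⁻¹` on `A0 N`. -/
def diaA (N : ℕ) [NeZero N] [Cond N] (g : Gamma0 N) : A0 N →+* A0 N := (exists_diaA N g).choose

theorem PhiB_diaA (N : ℕ) [NeZero N] [Cond N] (g : Gamma0 N) (a : A0 N) :
    PhiB N (diaA N g a) = actB N g (PhiB N a) := (exists_diaA N g).choose_spec a

theorem diaA_injective (N : ℕ) [NeZero N] [Cond N] (g : Gamma0 N) :
    Function.Injective (diaA N g) := by
  intro x y h
  apply PhiB_injective N
  apply theta_actB_injective N g
  rw [← PhiB_diaA, ← PhiB_diaA, h]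

theorem diaA_const (N : ℕ) [NeZero N] [Cond N] (g : Gamma0 N) (c : Kb) :
    diaA N g (algebraMap Kb (A0 N) c) = algebraMap Kb (A0 N) c := by
  apply PhiB_injective N
  apply Subtype.ext
  rw [PhiB_diaA, coe_actB, PhiB_const, act_constK]

theorem diaA_Jser (N : ℕ) [NeZero N] [Cond N] (g : Gamma0 N) {d : ℕ} (hd : d ∣ N) :
    diaA N g ⟨Jser d, Jser_mem_A0 hd⟩ = ⟨Jser d, Jser_mem_A0 hd⟩ := by
  apply PhiB_injective N
  apply Subtype.ext
  rw [PhiB_diaA, coe_actB, PhiB_Jser N hd, act_jd_of_mem_Gamma0 hd g g.2]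

theorem diaA_Tser (N : ℕ) [NeZero N] [Cond N] (g : Gamma0 N) {e : ℕ} (he : e * Cond.D N ∣ N)
    (b : ZMod (Cond.D N)) :
    diaA N g ⟨Tser (Cond.D N) e b, Tser_mem_A0 he b⟩ =
      ⟨Tser (Cond.D N) e (b * (((g : SL(2, ℤ)) 1 1 : ℤ) : ZMod (Cond.D N))), Tser_mem_A0 he _⟩ := by
  apply PhiB_injective N
  apply Subtype.ext
  rw [PhiB_diaA, coe_actB, PhiB_Tser N he, PhiB_Tser N he, act_te he b g g.2]

theorem diaA_mul (N : ℕ) [NeZero N] [Cond N] (g h : Gamma0 N) (a : A0 N) :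
    diaA N (g * h) a = diaA N g (diaA N h a) := by
  apply PhiB_injective N
  rw [PhiB_diaA, PhiB_diaA, PhiB_diaA]
  exact theta_actB_mul N g h _

theorem diaA_one (N : ℕ) [NeZero N] [Cond N] (a : A0 N) : diaA N 1 a = a := by
  apply PhiB_injective N
  rw [PhiB_diaA]
  exact degree_actB_one N _

theorem diaA_of_mem_Gam (N : ℕ) [NeZero N] [Cond N] (g : Gamma0 N) (hg : (g : SL(2, ℤ)) ∈ Gam N)
    (a : A0 N) : diaA N g a = a := by
  apply PhiB_injective N
  rw [PhiB_diaA, act_PhiB N g hg]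

/-- `A0 N → FN N` is a fraction field. -/
theorem isFractionRing_FN (N : ℕ) [NeZero N] [Cond N] :
    letI : Algebra (A0 N) (FN N) := (thetaIncl N).toAlgebra
    IsFractionRing (A0 N) (FN N) := by
  letI : Algebra (A0 N) (FN N) := (thetaIncl N).toAlgebra
  haveI : FaithfulSMul (A0 N) (FN N) :=
    (faithfulSMul_iff_algebraMap_injective (A0 N) (FN N)).mpr (thetaIncl_injective N)
  exact IsFractionRing.of_field _ _ (fun f => by
    obtain ⟨u, w, -, hf⟩ := thetaIncl_exists_div N f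
    exact ⟨u, w, hf⟩)

theorem exists_diaF (N : ℕ) [NeZero N] [Cond N] (g : Gamma0 N) :
    ∃ Φ : FN N →+* FN N, ∀ a : A0 N, Φ (thetaIncl N a) = thetaIncl N (diaA N g a) := by
  letI : Algebra (A0 N) (FN N) := (thetaIncl N).toAlgebra
  haveI := isFractionRing_FN N
  have hinj : Function.Injective ((thetaIncl N).comp (diaA N g)) :=
    (thetaIncl_injective N).comp (diaA_injective N g)
  exact ⟨IsFractionRing.lift hinj, fun a => IsFractionRing.lift_algebraMap hinj a⟩

/-- `f ↦ f ∘ g⁻¹` on `FN N`, as a ring homomorphism. -/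
def diaH (N : ℕ) [NeZero N] [Cond N] (g : Gamma0 N) : FN N →+* FN N := (exists_diaF N g).choose

theorem diaH_incl (N : ℕ) [NeZero N] [Cond N] (g : Gamma0 N) (a : A0 N) :
    diaH N g (thetaIncl N a) = thetaIncl N (diaA N g a) := (exists_diaF N g).choose_spec a

/-- two ring homs on `FN N` which agree on `A0 N` are equal. -/
theorem FN_ringHom_ext {R : Type*} [DivisionRing R] (N : ℕ) [NeZero N] [Cond N] (φ ψ : FN N →+* R)
    (h : ∀ a : A0 N, φ (thetaIncl N a) = ψ (thetaIncl N a)) : φ = ψ := by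
  ext1 f
  obtain ⟨u, w, -, hf⟩ := thetaIncl_exists_div N f
  rw [hf, map_div₀, map_div₀, h, h]

theorem diaH_mul (N : ℕ) [NeZero N] [Cond N] (g h : Gamma0 N) (f : FN N) :
    diaH N (g * h) f = diaH N g (diaH N h f) := by
  have : diaH N (g * h) = (diaH N g).comp (diaH N h) := by
    apply FN_ringHom_ext
    intro a
    rw [RingHom.comp_apply, diaH_incl, diaH_incl, diaH_incl, diaA_mul]
  rw [this, RingHom.comp_apply]

theorem diaH_one (N : ℕ) [NeZero N] [Cond N] (f : FN N) : diaH N 1 f = f := by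
  have : diaH N 1 = RingHom.id _ := by
    apply FN_ringHom_ext
    intro a
    rw [diaH_incl, diaA_one, RingHom.id_apply]
  rw [this, RingHom.id_apply]

theorem diaH_algebraMap (N : ℕ) [NeZero N] [Cond N] (g : Gamma0 N) (c : Kb) :
    diaH N g (algebraMap Kb (FN N) c) = algebraMap Kb (FN N) c := by
  have h1 : algebraMap Kb (FN N) c = thetaIncl N (algebraMap Kb (A0 N) c) := rfl
  rw [h1, diaH_incl, diaA_const]

/-- **the diamond automorphism** `f ↦ f ∘ g⁻¹` of `FN N` (`g ∈ Γ₀(N)`). -/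
def diaF (N : ℕ) [NeZero N] [Cond N] (g : Gamma0 N) : FN N ≃ₐ[Kb] FN N where
  toFun := diaH N g
  invFun := diaH N g⁻¹
  left_inv f := by rw [← diaH_mul, inv_mul_cancel, diaH_one]
  right_inv f := by rw [← diaH_mul, mul_inv_cancel, diaH_one]
  map_mul' := map_mul _
  map_add' := map_add _
  commutes' := diaH_algebraMap N g

theorem diaF_apply (N : ℕ) [NeZero N] [Cond N] (g : Gamma0 N) (f : FN N) :
    diaF N g f = diaH N g f := rfl

theorem diaF_incl (N : ℕ) [NeZero N] [Cond N] (g : Gamma0 N) (a : A0 N) :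
    diaF N g (thetaIncl N a) = thetaIncl N (diaA N g a) := diaH_incl N g a

theorem diaF_mul (N : ℕ) [NeZero N] [Cond N] (g h : Gamma0 N) (f : FN N) :
    diaF N (g * h) f = diaF N g (diaF N h f) := diaH_mul N g h f

theorem diaF_of_mem_Gam (N : ℕ) [NeZero N] [Cond N] (g : Gamma0 N) (hg : (g : SL(2, ℤ)) ∈ Gam N)
    (f : FN N) : diaF N g f = f := by
  have : diaH N g = RingHom.id _ := by
    apply FN_ringHom_ext
    intro a
    rw [diaH_incl, diaA_of_mem_Gam N g hg, RingHom.id_apply]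
  rw [diaF_apply, this, RingHom.id_apply]

/-- compatibility with the embeddings `theta`. -/
theorem theta_diaF (N : ℕ) [NeZero N] [Cond N] (c : Chart N) (h : SL(2, ℤ)) (g : Gamma0 N)
    (f : FN N) : theta N c h (diaF N g f) = theta N c (h * g) f := by
  have : (theta N c h).comp (diaH N g) = theta N c (h * g) := by
    apply FN_ringHom_ext
    intro a
    rw [RingHom.comp_apply, diaH_incl, theta_incl, theta_incl, PhiB_diaA, theta_actB_mul]
  rw [diaF_apply, ← this, RingHom.comp_apply]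

theorem coeffMap_Jser (σ : Kb ≃ₐ[ℚ] Kb) (d : ℕ) :
    coeffMap (σ : Kb →+* Kb) (Jser d) = Jser d := by
  by_cases hd : d = 0
  · subst hd
    simp [Jser]
  · haveI : NeZero d := ⟨hd⟩
    rw [← phi_coeffEmb_qExpand_jq, coeffMap_coeffEmb]

theorem coeffMap_Tser (σ : Kb ≃ₐ[ℚ] Kb) (D e : ℕ) (b : ZMod D) :
    coeffMap (σ : Kb →+* Kb) (Tser D e b) = Tser D e b := by
  by_cases he : e = 0
  · subst he
    simp [Tser]
  · haveI : NeZero e := ⟨he⟩
    rw [phi_Tser_of_ne, coeffMap_coeffEmb]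

/-- the diamonds commute with the coefficientwise Galois action. -/
theorem diaF_arithmeticRingAut (N : ℕ) [NeZero N] [Cond N] (g : Gamma0 N) (σ : Kb ≃ₐ[ℚ] Kb)
    (f : FN N) :
    diaF N g (arithmeticRingAut (modularFunctionFieldFull N) σ f) =
      arithmeticRingAut (modularFunctionFieldFull N) σ (diaF N g f) := by
  set G : FN N →+* FN N := (arithmeticRingAut (modularFunctionFieldFull N) σ : FN N →+* FN N) with hG
  have hGJ : ∀ {d : ℕ} (hd : d ∣ N), G (thetaIncl N ⟨Jser d, Jser_mem_A0 hd⟩) =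
      thetaIncl N ⟨Jser d, Jser_mem_A0 hd⟩ := fun {d} hd => Subtype.ext (coeffMap_Jser σ d)
  have hGT : ∀ {e : ℕ} (he : e * Cond.D N ∣ N) (b : ZMod (Cond.D N)),
      G (thetaIncl N ⟨Tser (Cond.D N) e b, Tser_mem_A0 he b⟩) =
      thetaIncl N ⟨Tser (Cond.D N) e b, Tser_mem_A0 he b⟩ :=
    fun {e} he b => Subtype.ext (coeffMap_Tser σ _ e b)
  have key : (diaH N g).comp G = G.comp (diaH N g) := by
    apply FN_ringHom_ext
    rintro ⟨a, ha⟩
    have ha' : a ∈ Algebra.adjoin Kb (fGens N) := ha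
    induction ha' using Algebra.adjoin_induction with
    | mem x hx =>
      rcases hx with ⟨d, hd, rfl⟩ | ⟨e, b, he, rfl⟩
      · rw [RingHom.comp_apply, RingHom.comp_apply, hGJ hd, diaH_incl, diaA_Jser N g hd, hGJ hd]
      · rw [RingHom.comp_apply, RingHom.comp_apply, hGT he, diaH_incl, diaA_Tser N g he, hGT he]
    | algebraMap r =>
      have h1 : thetaIncl N (⟨algebraMap Kb (LaurentSeries Kb) r, ha⟩ : A0 N) =
        algebraMap Kb (FN N) r := rfl
      have h2 : ∀ c : Kb, G (algebraMap Kb (FN N) c) = algebraMap Kb (FN N) (σ c) :=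
        fun c => arithmeticRingAut_algebraMap (modularFunctionFieldFull N) σ c
      rw [RingHom.comp_apply, RingHom.comp_apply, h1, h2, diaH_algebraMap, diaH_algebraMap, h2]
    | add x y hx hy ihx ihy =>
      have hx' : x ∈ A0 N := hx
      have hy' : y ∈ A0 N := hy
      have h1 : (⟨x + y, ha⟩ : A0 N) = ⟨x, hx'⟩ + ⟨y, hy'⟩ := rfl
      rw [h1, map_add, map_add, map_add, ihx hx', ihy hy']
    | mul x y hx hy ihx ihy =>
      have hx' : x ∈ A0 N := hx
      have hy' : y ∈ A0 N := hy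
      have h1 : (⟨x * y, ha⟩ : A0 N) = ⟨x, hx'⟩ * ⟨y, hy'⟩ := rfl
      rw [h1, map_mul, map_mul, map_mul, ihx hx', ihy hy']
  exact congrArg (fun F : FN N →+* FN N => F f) key

end Fermat.Agent.T24
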