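import Fermat.Agent.S48.T24.Degree
import Fermat.Agent.S24.JSurj
import Fermat.Agent.S24.JOrder
import Fermat.Agent.S24.TaylorAct
import Fermat.Agent.S24.Count
import Fermat.Agent.S24.RH
import Fermat.Agent.ES.Orbits
import Fermat.Prelude.Thm_ModularCurve_coeff_jqModC_neg_one
import Fermat.Prelude.Thm_ModularCurve_coeff_jqModC_pow_of_lt

set_option autoImplicit false

/-! # S24 task B-Cards : the number of places over each value of `j` -/

open UpperHalfPlane ModularForm EisensteinSeries CongruenceSubgroup IntermediateField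
open AlgebraicCurve
open scoped MatrixGroups Manifold

namespace Fermat.Agent.T24

open Fermat.Agent.S24

/-- the chart at a point of the upper half plane. -/
noncomputable def ptChart (N : ℕ) [NeZero N] [Cond N] (τ : ℍ) : Chart N where
  R := holSub
  T := TPt τ
  inj := TPt_injective τ
  le := Btil_le_holSub N
  const a := TPt_const τ (iotaK a) _

namespace Cards

theorem card_Q (N : ℕ) [NeZero N] [Cond N] :
    Nat.card (SL(2, ℤ) ⧸ Gam N) = Module.finrank Kb⟮jF N⟯ (FN N) := by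
  rw [finrank_jF, Subgroup.index]

theorem finite_Q (N : ℕ) [NeZero N] [Cond N] : Finite (SL(2, ℤ) ⧸ Gam N) := by
  apply Nat.finite_of_card_ne_zero
  rw [card_Q]
  haveI := finiteDimensional_jF N
  exact Module.finrank_pos.ne'

/-- the common part of the four computations. -/
theorem card_aux (N : ℕ) [NeZero N] [Cond N] (c : Chart N) (x : FN N) (hx : Transcendental Kb x)
    (hadj : Kb⟮x⟯ = Kb⟮jF N⟯)
    (X : LaurentSeries ℂ) (hxx : ∀ g, theta N c g x = X)
    (e₀ : ℕ) (he₀ : 0 < e₀) (hx₀ : X.order = e₀)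
    (ε : SL(2, ℤ)) (ζ : ℂ) (hζ : IsPrimitiveRoot ζ e₀)
    (hB : ∀ b : Btil N, b ≠ 0 → (c.onB (actB N ε b)).order = (c.onB b).order ∧
      (c.onB (actB N ε b)).leadingCoeff = ζ ^ (c.onB b).order * (c.onB b).leadingCoeff) :
    Nat.card {v : Place Kb (FN N) // 0 < v.ord x}
      = Nat.card (MulAction.orbitRel.Quotient (Subgroup.zpowers ε) (SL(2, ℤ) ⧸ Gam N)) := by
  haveI := finite_Q N
  refine card_places_eq_card_orbits_theta (isFF1_FN N) hx ?_ (thetaQ N c) (thetaQ_injective N c)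
    iotaK (fun q a => theta_const N c _ a) (fun q q' => (hxx _).trans (hxx _).symm) e₀ he₀
    (fun q => by rw [thetaQ, hxx, hx₀]) ε ζ hζ
    (fun q f hf => thetaQ_smul N c ε ζ (hζ.ne_zero he₀.ne') hB q f hf)
  rw [hadj, card_Q]

theorem ptChart_onB (N : ℕ) [NeZero N] [Cond N] (τ : ℍ) (b : Btil N) :
    (ptChart N τ).onB b = TPt τ ⟨b.1, Btil_le_holSub N b.2⟩ := rfl

theorem theta_sub_const (N : ℕ) [NeZero N] [Cond N] (τ : ℍ) (g : SL(2, ℤ)) (a : Kb) :
    theta N (ptChart N τ) g (jF N - algebraMap Kb (FN N) a)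
      = TPt τ ⟨fun z => jFun z - iotaK a, jFun_sub_mem_holSub _⟩ := by
  rw [map_sub, theta_jF, theta_const, ptChart_onB,
    ← TPt_const τ (iotaK a) (Btil_le_holSub N (constK_mem_Btil N a)), ← map_sub]
  congr 1

theorem hB_pt (N : ℕ) [NeZero N] [Cond N] (τ : ℍ) (ε : SL(2, ℤ)) (hε : ε • τ = τ) (b : Btil N)
    (hb : b ≠ 0) :
    ((ptChart N τ).onB (actB N ε b)).order = ((ptChart N τ).onB b).order ∧
      ((ptChart N τ).onB (actB N ε b)).leadingCoeff =
        (((((ε⁻¹ : SL(2, ℤ)) 1 0 : ℤ) : ℂ) * τ + (((ε⁻¹ : SL(2, ℤ)) 1 1 : ℤ) : ℂ)) ^ (-2 : ℤ))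
          ^ ((ptChart N τ).onB b).order * ((ptChart N τ).onB b).leadingCoeff := by
  have hb' : (⟨b.1, Btil_le_holSub N b.2⟩ : holSub) ≠ 0 := by
    intro h
    apply hb
    ext1
    exact congrArg (fun y : holSub => (y : ℍ → ℂ)) h
  have := TPt_act τ ε hε ⟨b.1, Btil_le_holSub N b.2⟩ hb'
  rw [zpow_mul] at this
  rw [ptChart_onB, ptChart_onB]
  exact this

theorem card_orbits_one (Q : Type*) [MulAction SL(2, ℤ) Q] :
    Nat.card (MulAction.orbitRel.Quotient (Subgroup.zpowers (1 : SL(2, ℤ))) Q) = Nat.card Q := by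
  symm
  apply Nat.card_congr
  refine Equiv.ofBijective (fun q => Quotient.mk'' q) ⟨?_, Quotient.mk''_surjective⟩
  intro a b hab
  have h1 : (MulAction.orbitRel (Subgroup.zpowers (1 : SL(2, ℤ))) Q).r a b := Quotient.eq''.mp hab
  rw [MulAction.orbitRel_apply] at h1
  obtain ⟨⟨g, hg⟩, hgb⟩ := h1
  rw [Subgroup.zpowers_one_eq_bot, Subgroup.mem_bot] at hg
  subst hg
  simpa using hgb.symm

theorem order_jqModC : (ModularCurve.jqModC ℂ).order = -1 := by
  have h1 : (ModularCurve.jqModC ℂ).coeff (-1) = 1 := ModularCurve.coeff_jqModC_neg_one ℂ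
  have hne : ModularCurve.jqModC ℂ ≠ 0 := by
    intro h
    rw [h] at h1
    simp at h1
  apply le_antisymm
  · exact HahnSeries.order_le_of_coeff_ne_zero (by rw [h1]; exact one_ne_zero)
  · by_contra hlt
    rw [not_le] at hlt
    have h2 : (ModularCurve.jqModC ℂ).coeff (ModularCurve.jqModC ℂ).order ≠ 0 :=
      fun h => hne (HahnSeries.coeff_order_eq_zero.mp h)
    apply h2
    have := ModularCurve.coeff_jqModC_pow_of_lt ℂ (b := 1) (m := (ModularCurve.jqModC ℂ).order)
      (by simpa using hlt)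
    simpa using this

theorem order_inv' (x : LaurentSeries ℂ) (hx : x ≠ 0) : (x⁻¹).order = - x.order := by
  have h := HahnSeries.order_mul hx (inv_ne_zero hx)
  rw [mul_inv_cancel₀ hx, HahnSeries.order_one] at h
  omega

theorem cuspChart_onB (N : ℕ) [NeZero N] [Cond N] (b : Btil N) :
    (cuspChart N).onB b = TInf N ⟨b.1, Btil_le_perSub N b.2⟩ := rfl

theorem order_TInf_jFun (N : ℕ) [NeZero N] [Cond N] :
    (TInf N ⟨jFun, Btil_le_perSub N (jFun_mem_Btil N)⟩).order = -(N : ℤ) := by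
  haveI : NeZero (1 * N) := ⟨by simpa using NeZero.ne N⟩
  have h1 : (⟨jFun, Btil_le_perSub N (jFun_mem_Btil N)⟩ : perSub N)
      = ⟨jd 1, Btil_le_perSub N (jd_mem_Btil (one_dvd N))⟩ := Subtype.ext jd_one.symm
  rw [h1, TInf_jd N (one_dvd N), order_qExpand, order_jqModC]
  push_cast
  ring

end Cards

open Fermat.Agent.T24.Cards

theorem card_places_generic (N : ℕ) [NeZero N] [Cond N] (c : Kb) (h0 : c ≠ 0) (h1 : c ≠ 1728) :
    Nat.card {v : Place Kb (FN N) // 0 < v.ord (jF N - algebraMap Kb (FN N) c)}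
      = Module.finrank Kb⟮jF N⟯ (FN N) := by
  obtain ⟨τ, hτ⟩ := jFun_surjective (iotaK c)
  have h0' : jFun τ ≠ 0 := by
    rw [hτ]; exact (map_ne_zero iotaK).mpr h0
  have h1' : jFun τ ≠ 1728 := by
    rw [hτ]
    intro h
    apply h1
    apply iotaK.injective
    rw [h, map_ofNat]
  refine (card_aux N (ptChart N τ) _ (RH.transcendental_sub_const (transcendental_jF N) c)
    (RH.adjoin_sub_const _ _) _ (fun g => theta_sub_const N τ g c) 1 one_pos
    (by rw [← hτ]; exact_mod_cast order_TPt_jFun_sub τ h0' h1') 1 1 IsPrimitiveRoot.one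
    (fun b _ => ?_)).trans ((card_orbits_one _).trans (card_Q N))
  have : actB N 1 b = b := by
    ext1
    exact act_one _
  rw [this]
  simp

theorem card_places_1728 (N : ℕ) [NeZero N] [Cond N] :
    Nat.card {v : Place Kb (FN N) // 0 < v.ord (jF N - algebraMap Kb (FN N) 1728)}
      = Fermat.Agent.ES.fixDim (SL(2, ℤ) ⧸ Gam N) ModularGroup.S := by
  haveI := finite_Q N
  rw [Fermat.Agent.ES.fixDim_eq_card_orbits]
  refine card_aux N (ptChart N I) _ (RH.transcendental_sub_const (transcendental_jF N) _)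
    (RH.adjoin_sub_const _ _) _ (fun g => theta_sub_const N I g 1728) 2 two_pos
    ?_ ModularGroup.S (-1) (IsPrimitiveRoot.neg_one 0 (by norm_num)) (fun b hb => ?_)
  · have : iotaK 1728 = 1728 := map_ofNat iotaK 1728
    simp only [this]
    exact_mod_cast order_TPt_jFun_sub_I
  · have := hB_pt N I ModularGroup.S S_smul_I b hb
    rwa [multiplier_S] at this

theorem card_places_zero (N : ℕ) [NeZero N] [Cond N] :
    Nat.card {v : Place Kb (FN N) // 0 < v.ord (jF N - algebraMap Kb (FN N) 0)}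
      = Fermat.Agent.ES.fixDim (SL(2, ℤ) ⧸ Gam N) (ModularGroup.S * ModularGroup.T) := by
  haveI := finite_Q N
  rw [Fermat.Agent.ES.fixDim_eq_card_orbits]
  refine card_aux N (ptChart N rhoPt) _ (RH.transcendental_sub_const (transcendental_jF N) _)
    (RH.adjoin_sub_const _ _) _ (fun g => theta_sub_const N rhoPt g 0) 3 (by norm_num)
    ?_ (ModularGroup.S * ModularGroup.T) _ multiplier_ST
    (fun b hb => hB_pt N rhoPt _ ST_smul_rhoPt b hb)
  have : iotaK 0 = 0 := map_zero iotaK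
  simp only [this]
  exact_mod_cast order_TPt_jFun_sub_rhoPt

theorem card_places_infty (N : ℕ) [NeZero N] [Cond N] :
    Nat.card {v : Place Kb (FN N) // v.ord (jF N) < 0}
      = Fermat.Agent.ES.fixDim (SL(2, ℤ) ⧸ Gam N) ModularGroup.T := by
  haveI := finite_Q N
  rw [Fermat.Agent.ES.fixDim_eq_card_orbits]
  have hcongr : Nat.card {v : Place Kb (FN N) // v.ord (jF N) < 0}
      = Nat.card {v : Place Kb (FN N) // 0 < v.ord (jF N)⁻¹} :=
    Nat.card_congr (Equiv.subtypeEquivRight fun v => by rw [Place.ord_inv]; omega)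
  rw [hcongr]
  have hne : TInf N ⟨jFun, Btil_le_perSub N (jFun_mem_Btil N)⟩ ≠ 0 := by
    intro h
    have h2 := order_TInf_jFun N
    rw [h, HahnSeries.order_zero] at h2
    have := NeZero.ne N
    omega
  refine card_aux N (cuspChart N) _ (RH.transcendental_inv (transcendental_jF N))
    (principal_adjoin_inv_eq _) (TInf N ⟨jFun, Btil_le_perSub N (jFun_mem_Btil N)⟩)⁻¹
    (fun g => by rw [map_inv₀, theta_jF, cuspChart_onB]) N (Nat.pos_of_ne_zero (NeZero.ne N))
    (by rw [order_inv' _ hne, order_TInf_jFun, neg_neg]) ModularGroup.T _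
    (isPrimitiveRoot_rootU N) (fun b _ => ?_)
  have h := TInf_act_T N ⟨b.1, Btil_le_perSub N b.2⟩
  rw [cuspChart_onB, cuspChart_onB]
  have h' : TInf N ⟨(actB N ModularGroup.T b : Btil N).1,
      Btil_le_perSub N (actB N ModularGroup.T b).2⟩
      = twist (rootU N (-1)) (TInf N ⟨b.1, Btil_le_perSub N b.2⟩) := h
  rw [h', order_twist, leadingCoeff_twist]
  exact ⟨rfl, rfl⟩

end Fermat.Agent.T24
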