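import Fermat.Agent.S48.T24.Defs

set_option autoImplicit false

/-!
# T24, base lemmas on the Eisenstein series `G_v` and the functions `y_v`, `t_b`  (LEAVES `T24-B*`)

Everything which is specific to the new generators is concentrated in this file; the other files of `T24` are textual twins of the corresponding files of `S24`.
-/

open UpperHalfPlane ModularForm EisensteinSeries CongruenceSubgroup
open scoped MatrixGroups Manifold Real

namespace Fermat.Agent.T24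

open Fermat.Agent.S24

/-- row vector times matrix, modulo `D`. -/
def vmul (D : ℕ) (v : Fin 2 → ZMod D) (g : SL(2, ℤ)) : Fin 2 → ZMod D :=
  ![v 0 * ((g 0 0 : ℤ) : ZMod D) + v 1 * ((g 1 0 : ℤ) : ZMod D),
    v 0 * ((g 0 1 : ℤ) : ZMod D) + v 1 * ((g 1 1 : ℤ) : ZMod D)]

theorem redV_vecMul (D : ℕ) (x : Fin 2 → ℤ) (g : SL(2, ℤ)) :
    redV D (Matrix.vecMul x (g : Matrix (Fin 2) (Fin 2) ℤ)) = vmul D (redV D x) g := by
  funext i
  fin_cases i <;> simp [redV, vmul, Matrix.vecMul, dotProduct, Fin.sum_univ_two]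

theorem vmul_vmul (D : ℕ) (v : Fin 2 → ZMod D) (g h : SL(2, ℤ)) :
    vmul D (vmul D v g) h = vmul D v (g * h) := by
  funext i
  fin_cases i <;>
    simp [vmul, Matrix.SpecialLinearGroup.coe_mul, Matrix.mul_apply, Fin.sum_univ_two] <;> ring

theorem vmul_one (D : ℕ) (v : Fin 2 → ZMod D) : vmul D v 1 = v := by
  funext i
  fin_cases i <;> simp [vmul]

/-- reindexing `x ↦ x g`. -/
def vEquiv (D : ℕ) (v : Fin 2 → ZMod D) (g : SL(2, ℤ)) :
    {x : Fin 2 → ℤ // redV D x = v} ≃ {y : Fin 2 → ℤ // redV D y = vmul D v g} where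
  toFun x := ⟨Matrix.vecMul x.1 (g : Matrix (Fin 2) (Fin 2) ℤ), by rw [redV_vecMul, x.2]⟩
  invFun y := ⟨Matrix.vecMul y.1 ((g⁻¹ : SL(2, ℤ)) : Matrix (Fin 2) (Fin 2) ℤ), by
    rw [redV_vecMul, y.2, vmul_vmul, mul_inv_cancel, vmul_one]⟩
  left_inv x := by
    apply Subtype.ext
    simp only [Matrix.vecMul_vecMul, ← Matrix.SpecialLinearGroup.coe_mul, mul_inv_cancel,
      Matrix.SpecialLinearGroup.coe_one, Matrix.vecMul_one]
  right_inv y := by
    apply Subtype.ext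
    simp only [Matrix.vecMul_vecMul, ← Matrix.SpecialLinearGroup.coe_mul, inv_mul_cancel,
      Matrix.SpecialLinearGroup.coe_one, Matrix.vecMul_one]

/-- **T24-B1.**  `eisSummand_SL2_apply`, reindexing `x ↦ x ᵥ* g` (an `Equiv` between the two index sets, `Equiv.tsum_eq`, `tsum_mul_left`;
no summability needed). -/
theorem G4_smul (D : ℕ) [NeZero D] (v : Fin 2 → ZMod D) (g : SL(2, ℤ)) (z : ℍ) :
    G4 D v (g • z) = denom g z ^ (4 : ℤ) * G4 D (vmul D v g) z := by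
  unfold G4
  simp only [eisSummand_SL2_apply]
  rw [tsum_mul_left]
  congr 1
  exact (vEquiv D v g).tsum_eq (fun y => eisSummand 4 y.1 z)

/-- **T24-B1.**  reindexing `x ↦ -x`. -/
theorem G4_neg (D : ℕ) [NeZero D] (v : Fin 2 → ZMod D) : G4 D (-v) = G4 D v := by
  funext z
  unfold G4
  let e : {x : Fin 2 → ℤ // redV D x = -v} ≃ {x : Fin 2 → ℤ // redV D x = v} :=
    { toFun := fun x => ⟨-x.1, by
        have := x.2
        funext i
        have h := congrFun this i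
        simp only [redV, Pi.neg_apply, Int.cast_neg] at h ⊢
        rw [h, neg_neg]⟩
      invFun := fun x => ⟨-x.1, by
        have := x.2
        funext i
        have h := congrFun this i
        simp only [redV, Pi.neg_apply, Int.cast_neg] at h ⊢
        rw [h]⟩
      left_inv := fun x => Subtype.ext (neg_neg _)
      right_inv := fun x => Subtype.ext (neg_neg _) }
  rw [← e.tsum_eq]
  refine tsum_congr fun x => ?_
  show eisSummand 4 x.1 z = eisSummand 4 (-x.1) z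
  simp only [eisSummand, Pi.neg_apply, Int.cast_neg]
  have h : (-(x.1 0 : ℂ) * z + -(x.1 1 : ℂ)) = -((x.1 0 : ℂ) * z + (x.1 1 : ℂ)) := by ring
  rw [h, Even.neg_zpow (by decide : Even (-4 : ℤ))]

/-- **T24-B2.**  from `G4_smul`, `S24.expandB_levelOne_smul`, `S24.expandB_discriminant_smul`. -/
theorem yv_smul (D : ℕ) [NeZero D] (v : Fin 2 → ZMod D) (g : SL(2, ℤ)) (z : ℍ) :
    yv D v (g • z) = yv D (vmul D v g) z := by
  unfold yv G4n
  rw [G4_smul, expandB_levelOne_smul E₄ g z, expandB_discriminant_smul g z]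
  have h1 : denom g z ≠ 0 := denom_ne_zero _ z
  have h2 : discriminant z ≠ 0 := discriminant_ne_zero z
  have e1 : denom g z ^ (4 : ℤ) = denom g z ^ 4 := by norm_cast
  have e2 : denom g z ^ (12 : ℤ) = denom g z ^ 12 := by norm_cast
  rw [e1, e2]
  field_simp

theorem act_yv (D : ℕ) [NeZero D] (v : Fin 2 → ZMod D) (g : SL(2, ℤ)) :
    act g (yv D v) = yv D (vmul D v g⁻¹) := by
  funext z
  rw [act_apply, yv_smul]

theorem yv_neg (D : ℕ) [NeZero D] (v : Fin 2 → ZMod D) : yv D (-v) = yv D v := by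
  funext z
  simp only [yv, G4n, G4_neg]

/-! ### the `q`-expansion -/

/-- the coefficients of `G_v = ∑ gCoeff n q_D^n`, `q_D = exp (2 π i z / D)`. -/
noncomputable def gCoeff (D : ℕ) [NeZero D] (v : Fin 2 → ZMod D) (n : ℕ) : ℂ :=
  if n = 0 then
    (if v 0 = 0 then
      ∑ b : ZMod D, ((rootU D (((v 1).val : ℤ) * (b.val : ℤ)) : ℂˣ) : ℂ) * ((c0 D b : ℚ) : ℂ) else 0)
  else ∑ m ∈ n.divisors,
    ((if ((n / m : ℕ) : ZMod D) = v 0 then
        (m : ℂ) ^ 3 * ((rootU D (((v 1).val : ℤ) * (m : ℤ)) : ℂˣ) : ℂ) else 0) +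
     (if ((n / m : ℕ) : ZMod D) = - v 0 then
        (m : ℂ) ^ 3 * ((rootU D (-(((v 1).val : ℤ) * (m : ℤ))) : ℂˣ) : ℂ) else 0))

/-- the residue class `a` as `a.val + D ℤ`. -/
noncomputable def rowEquiv (D : ℕ) [NeZero D] (a : ZMod D) :
    ℤ ≃ {d : ℤ // ((d : ℤ) : ZMod D) = a} :=
  Equiv.ofBijective (fun k : ℤ => ⟨(a.val : ℤ) + D * k, by
      push_cast
      rw [ZMod.natCast_zmod_val, ZMod.natCast_self, zero_mul, add_zero]⟩) (by
    constructor
    · intro k k' h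
      have h1 : (a.val : ℤ) + D * k = (a.val : ℤ) + D * k' := congrArg Subtype.val h
      have hD : (D : ℤ) ≠ 0 := Nat.cast_ne_zero.2 (NeZero.ne D)
      exact mul_left_cancel₀ hD (add_left_cancel h1)
    · rintro ⟨d, hd⟩
      have h1 : ((d - (a.val : ℤ) : ℤ) : ZMod D) = 0 := by
        push_cast
        rw [ZMod.natCast_zmod_val, hd, sub_self]
      obtain ⟨k, hk⟩ := (ZMod.intCast_zmod_eq_zero_iff_dvd _ D).1 h1
      exact ⟨k, Subtype.ext (by show (a.val : ℤ) + D * k = d; rw [← hk]; ring)⟩)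

theorem rowEquiv_apply (D : ℕ) [NeZero D] (a : ZMod D) (k : ℤ) :
    ((rowEquiv D a k : {d : ℤ // ((d : ℤ) : ZMod D) = a}) : ℤ) = (a.val : ℤ) + D * k := rfl

/-- **T24-B3a** (one row, Lipschitz formula).  `d = a.val + D k`, `(c z + d)^{-4} = D^{-4} ((c z + a.val)/D + k)^{-4}`, and
`EisensteinSeries.qExpansion_identity_pnat` (`k = 3`) at the point `(c z + a.val)/D ∈ ℍ`. -/
theorem tsum_row (D : ℕ) [NeZero D] (c : ℕ) (hc : 0 < c) (a : ZMod D) (z : ℍ) :
    ((D : ℂ) ^ 4 * 6 / (2 * π) ^ 4) *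
      ∑' d : {d : ℤ // ((d : ℤ) : ZMod D) = a}, ((c : ℂ) * z + (d.1 : ℂ)) ^ (-4 : ℤ) =
    ∑' m : ℕ+, (m : ℂ) ^ 3 * ((rootU D ((a.val : ℤ) * (m : ℤ)) : ℂˣ) : ℂ) *
      Function.Periodic.qParam D z ^ (c * m : ℕ) := by
  have hD : (D : ℂ) ≠ 0 := Nat.cast_ne_zero.2 (NeZero.ne D)
  have hDpos : (0 : ℝ) < D := Nat.cast_pos.2 (NeZero.pos D)
  have hπ : (π : ℂ) ≠ 0 := Complex.ofReal_ne_zero.2 Real.pi_ne_zero
  have him : 0 < (((c : ℂ) * z + (a.val : ℂ)) / D).im := by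
    have h1 : (((c : ℂ) * z + (a.val : ℂ)) / D).im = (c : ℝ) * z.im / D := by
      rw [Complex.div_natCast_im, Complex.add_im, Complex.natCast_im, add_zero, Complex.mul_im,
        Complex.natCast_re, Complex.natCast_im, zero_mul, add_zero]
      rfl
    rw [h1]
    have := z.im_pos
    positivity
  let w : ℍ := ⟨((c : ℂ) * z + (a.val : ℂ)) / D, him⟩
  have hw : (w : ℂ) = ((c : ℂ) * z + (a.val : ℂ)) / D := rfl
  have H := qExpansion_identity_pnat (k := 3) (by norm_num) w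
  rw [← (rowEquiv D a).tsum_eq]
  have h1 : ∀ k : ℤ, ((c : ℂ) * z + (((rowEquiv D a k : {d : ℤ // ((d : ℤ) : ZMod D) = a}) : ℤ) : ℂ))
      ^ (-4 : ℤ) = ((D : ℂ) ^ 4)⁻¹ * (1 / ((w : ℂ) + k) ^ (3 + 1)) := by
    intro k
    rw [rowEquiv_apply, hw]
    have h2 : (c : ℂ) * z + (((a.val : ℤ) + D * k : ℤ) : ℂ) =
        D * (((c : ℂ) * z + (a.val : ℂ)) / D + k) := by
      push_cast
      field_simp
      ring
    rw [h2, zpow_neg, mul_zpow]
    norm_num
    ring
  simp only [h1]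
  rw [tsum_mul_left, H]
  have h3 : (-2 * (π : ℂ) * Complex.I) ^ (3 + 1) = (2 * π) ^ 4 := by
    have : (-2 * (π : ℂ) * Complex.I) ^ (3 + 1) = (2 * π) ^ 4 * Complex.I ^ 4 := by ring
    rw [this, Complex.I_pow_four, mul_one]
  rw [h3]
  have h4 : ((3 : ℕ).factorial : ℂ) = 6 := by norm_num [Nat.factorial]
  rw [h4]
  have h5 : ((D : ℂ) ^ 4 * 6 / (2 * π) ^ 4) * (((D : ℂ) ^ 4)⁻¹ * ((2 * π) ^ 4 / 6 *
      ∑' n : ℕ+, ((n : ℕ) : ℂ) ^ 3 * Complex.exp (2 * π * Complex.I * w) ^ (n : ℕ))) =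
      ∑' n : ℕ+, ((n : ℕ) : ℂ) ^ 3 * Complex.exp (2 * π * Complex.I * w) ^ (n : ℕ) := by
    field_simp
  rw [h5]
  refine tsum_congr fun m => ?_
  rw [mul_assoc ((m : ℂ) ^ 3)]
  congr 1
  rw [← Complex.exp_nat_mul, Function.Periodic.qParam, ← Complex.exp_nat_mul, rootU,
    Units.val_mk0, ← Complex.exp_add, hw]
  congr 1
  push_cast
  field_simp
  ring

theorem rootU_eq_stdAddChar (D : ℕ) [NeZero D] (k : ℤ) :
    ((rootU D k : ℂˣ) : ℂ) = ZMod.stdAddChar ((k : ℤ) : ZMod D) := by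
  rw [ZMod.stdAddChar_coe, rootU, Units.val_mk0]

/-- `cos (2 π n b / D)` through the standard additive character. -/
theorem cos_eq_stdAddChar (D : ℕ) [NeZero D] (n : ℕ) (b : ZMod D) :
    ((Real.cos (2 * π * n * ((b.val : ℝ) / D)) : ℝ) : ℂ) =
      (ZMod.stdAddChar (b * (n : ZMod D)) + ZMod.stdAddChar (b * (-(n : ZMod D)))) / 2 := by
  have h1 : b * (n : ZMod D) = (((b.val : ℤ) * (n : ℤ) : ℤ) : ZMod D) := by
    push_cast
    rw [ZMod.natCast_zmod_val]
  have h2 : b * (-(n : ZMod D)) = ((-((b.val : ℤ) * (n : ℤ)) : ℤ) : ZMod D) := by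
    push_cast
    rw [ZMod.natCast_zmod_val]
    ring
  rw [h1, h2, ZMod.stdAddChar_coe, ZMod.stdAddChar_coe, Complex.ofReal_cos, Complex.cos]
  congr 2
  · congr 1
    push_cast
    ring
  · congr 1
    push_cast
    ring

theorem sum_stdAddChar (D : ℕ) [NeZero D] (a c : ZMod D) :
    ∑ b : ZMod D, (ZMod.stdAddChar (a * b) : ℂ) * ZMod.stdAddChar (b * c) =
      if a + c = 0 then (D : ℂ) else 0 := by
  have h := AddChar.sum_mulShift (R := ZMod D) (R' := ℂ) (a + c) (ZMod.isPrimitive_stdAddChar D)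
  rw [ZMod.card] at h
  have h' : ∑ b : ZMod D, (ZMod.stdAddChar (a * b) : ℂ) * ZMod.stdAddChar (b * c) =
      ∑ x : ZMod D, (ZMod.stdAddChar (x * (a + c)) : ℂ) := by
    refine Finset.sum_congr rfl fun b _ => ?_
    rw [← AddChar.map_add_eq_mul]
    congr 1
    ring
  rw [h', h]
  split_ifs <;> simp

/-- **T24-B3b** (the constant term).  Fourier inversion on `ℤ/D` reduces to
`(D³ 6/(2π)⁴) ∑_{d ≠ 0} ζ^{-d b} d^{-4} = c0 D b`, i.e. `2 ∑_{d ≥ 1} cos (2 π d b/D) / d⁴ = - (2π)⁴/24 · B₄(b/D)`, which is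
`hasSum_one_div_nat_pow_mul_cos` (`k = 2`, `x = b.val / D ∈ [0,1]`). -/
theorem tsum_const (D : ℕ) [NeZero D] (a : ZMod D) :
    ((D : ℂ) ^ 4 * 6 / (2 * π) ^ 4) *
      ∑' d : {d : ℤ // ((d : ℤ) : ZMod D) = a}, ((d.1 : ℂ)) ^ (-4 : ℤ) =
    ∑ b : ZMod D, ((rootU D ((a.val : ℤ) * (b.val : ℤ)) : ℂˣ) : ℂ) * ((c0 D b : ℚ) : ℂ) := by
  classical
  have hD : (D : ℂ) ≠ 0 := Nat.cast_ne_zero.2 (NeZero.ne D)
  have hDpos : (0 : ℝ) < D := Nat.cast_pos.2 (NeZero.pos D)
  have hπ : (π : ℂ) ≠ 0 := Complex.ofReal_ne_zero.2 Real.pi_ne_zero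
  let f : ℤ → ℂ := fun d => if ((d : ℤ) : ZMod D) = a then (d : ℂ) ^ (-4 : ℤ) else 0
  have hsub : ∑' d : {d : ℤ // ((d : ℤ) : ZMod D) = a}, ((d.1 : ℂ)) ^ (-4 : ℤ) = ∑' d : ℤ, f d := by
    have := tsum_subtype {d : ℤ | ((d : ℤ) : ZMod D) = a} (fun d : ℤ => (d : ℂ) ^ (-4 : ℤ))
    refine this.trans (tsum_congr fun d => ?_)
    simp only [f, Set.indicator_apply, Set.mem_ofPred_eq]
  have hsum : Summable f := by
    refine Summable.of_norm_bounded (g := fun n : ℤ => 1 / (n : ℝ) ^ 4)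
      (Real.summable_one_div_int_pow.2 (by norm_num)) fun d => ?_
    simp only [f]
    split_ifs
    · have e0 : (d : ℂ) ^ (-4 : ℤ) = ((d : ℂ) ^ 4)⁻¹ := by
        rw [zpow_neg]
        norm_cast
      rw [e0, norm_inv, norm_pow, one_div, Complex.norm_intCast]
      have : |(d : ℝ)| ^ 4 = (d : ℝ) ^ 4 := by
        rw [← abs_pow]
        exact abs_of_nonneg (by positivity)
      rw [this]
    · rw [norm_zero]
      positivity
  have hf0 : f 0 = 0 := by
    simp only [f]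
    split_ifs
    · simp
    · rfl
  have h3 : HasSum (fun n : ℕ => f n + f (-(n : ℤ))) (∑' d : ℤ, f d) := by
    have := hsum.hasSum.nat_add_neg
    rwa [hf0, add_zero] at this
  -- the Bernoulli side
  have hb : ∀ b : ZMod D, HasSum
      (fun n : ℕ => ((1 / (n : ℝ) ^ (2 * 2) * Real.cos (2 * π * n * ((b.val : ℝ) / D)) : ℝ) : ℂ))
      ((((-1 : ℝ) ^ (2 + 1) * (2 * π) ^ (2 * 2) / 2 / (2 * 2).factorial *
        (Polynomial.map (algebraMap ℚ ℝ) (Polynomial.bernoulli (2 * 2))).eval ((b.val : ℝ) / D) : ℝ)) : ℂ) := by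
    intro b
    have hx : ((b.val : ℝ) / D) ∈ Set.Icc (0 : ℝ) 1 := by
      constructor
      · positivity
      · rw [div_le_one hDpos]
        exact_mod_cast (ZMod.val_lt b).le
    exact Complex.hasSum_ofReal.2 (hasSum_one_div_nat_pow_mul_cos (k := 2) two_ne_zero hx)
  have h4 := hasSum_sum (s := Finset.univ) fun (b : ZMod D) _ =>
    (hb b).mul_left (ZMod.stdAddChar (a * b) : ℂ)
  have h5 : ∀ n : ℕ, ∑ b : ZMod D, (ZMod.stdAddChar (a * b) : ℂ) *
      ((1 / (n : ℝ) ^ (2 * 2) * Real.cos (2 * π * n * ((b.val : ℝ) / D)) : ℝ) : ℂ) =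
      ((D : ℂ) / 2) * (f n + f (-(n : ℤ))) := by
    intro n
    have h6 : ∀ b : ZMod D, (ZMod.stdAddChar (a * b) : ℂ) *
        ((1 / (n : ℝ) ^ (2 * 2) * Real.cos (2 * π * n * ((b.val : ℝ) / D)) : ℝ) : ℂ) =
        (1 / (n : ℂ) ^ 4 / 2) * ((ZMod.stdAddChar (a * b) : ℂ) * ZMod.stdAddChar (b * (n : ZMod D)) +
          (ZMod.stdAddChar (a * b) : ℂ) * ZMod.stdAddChar (b * (-(n : ZMod D)))) := by
      intro b
      rw [Complex.ofReal_mul, cos_eq_stdAddChar]
      push_cast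
      ring
    simp only [h6]
    rw [← Finset.mul_sum, Finset.sum_add_distrib, sum_stdAddChar, sum_stdAddChar]
    simp only [f]
    have e1 : (((n : ℕ) : ℤ) : ZMod D) = (n : ZMod D) := by push_cast; rfl
    have e2 : ((-((n : ℕ) : ℤ) : ℤ) : ZMod D) = -(n : ZMod D) := by push_cast; rfl
    rw [e1, e2]
    have c1 : (a + (n : ZMod D) = 0) ↔ (-(n : ZMod D) = a) := by
      constructor
      · intro h; rw [eq_comm]; exact eq_neg_of_add_eq_zero_left h
      · intro h; rw [← h]; ring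
    have c2 : (a + -(n : ZMod D) = 0) ↔ ((n : ZMod D) = a) := by
      constructor
      · intro h; rw [eq_comm]; exact add_neg_eq_zero.1 h
      · intro h; rw [← h]; ring
    simp only [c1, c2]
    have p1 : (((n : ℕ) : ℤ) : ℂ) ^ (-4 : ℤ) = 1 / (n : ℂ) ^ 4 := by
      rw [zpow_neg, one_div]
      norm_cast
    have p2 : ((-((n : ℕ) : ℤ) : ℤ) : ℂ) ^ (-4 : ℤ) = 1 / (n : ℂ) ^ 4 := by
      rw [Int.cast_neg, Even.neg_zpow (by decide : Even (-4 : ℤ)), p1]
    rw [p1, p2]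
    split_ifs <;> ring
  simp only [h5] at h4
  have h7 := (h3.mul_left ((D : ℂ) / 2)).unique h4
  rw [hsub]
  have h8 : ∑' d : ℤ, f d = (2 / (D : ℂ)) * ((D : ℂ) / 2 * ∑' d : ℤ, f d) := by
    field_simp
  rw [h8, h7, Finset.mul_sum, Finset.mul_sum]
  refine Finset.sum_congr rfl fun b _ => ?_
  have e3 : ((rootU D ((a.val : ℤ) * (b.val : ℤ)) : ℂˣ) : ℂ) = ZMod.stdAddChar (a * b) := by
    rw [rootU_eq_stdAddChar]
    congr 1
    push_cast
    rw [ZMod.natCast_zmod_val, ZMod.natCast_zmod_val]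
  rw [e3]
  have e4 : (Polynomial.map (algebraMap ℚ ℝ) (Polynomial.bernoulli (2 * 2))).eval ((b.val : ℝ) / D) =
      (((Polynomial.bernoulli 4).eval ((b.val : ℚ) / D) : ℚ) : ℝ) := by
    have : ((b.val : ℝ) / D) = algebraMap ℚ ℝ ((b.val : ℚ) / D) := by
      rw [eq_ratCast]
      push_cast
      rfl
    rw [this, Polynomial.eval_map, Polynomial.eval₂_at_apply]
    rfl
  rw [e4, c0]
  have e5 : ((2 * 2 : ℕ).factorial : ℝ) = 24 := by norm_num [Nat.factorial]
  rw [e5]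
  push_cast
  field_simp
  ring

theorem b3c_rootU_congr (D : ℕ) [NeZero D] {a b : ℤ} (h : (a : ZMod D) = (b : ZMod D)) :
    rootU D a = rootU D b := by
  apply Units.ext
  show Complex.exp (2 * Real.pi * Complex.I * a / D) = Complex.exp (2 * Real.pi * Complex.I * b / D)
  obtain ⟨k, hk⟩ : (D : ℤ) ∣ a - b := by
    rw [← CharP.intCast_eq_zero_iff (ZMod D) D]
    push_cast
    rw [h, sub_self]
  rw [Complex.exp_eq_exp_iff_exists_int]
  refine ⟨k, ?_⟩
  have hD : (D : ℂ) ≠ 0 := Nat.cast_ne_zero.2 (NeZero.ne D)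
  have h2 : (a : ℂ) = b + D * k := by
    have := congrArg (Int.cast : ℤ → ℂ) hk
    push_cast at this
    linear_combination this
  rw [h2]
  field_simp

theorem b3c_tsum_ite {α : Type*} (P : α → Prop) [DecidablePred P] (f : α → ℂ) :
    ∑' x : {x // P x}, f x.1 = ∑' x, if P x then f x else 0 := by
  have h := tsum_subtype {x | P x} f
  refine Eq.trans h (tsum_congr fun x => ?_)
  simp [Set.indicator_apply]

/-- the summand on `ℤ × ℤ`. -/
noncomputable def b3cF (D : ℕ) (v : Fin 2 → ZMod D) (z : ℍ) (x : ℤ × ℤ) : ℂ :=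
  if ((x.1 : ℤ) : ZMod D) = v 0 then
    (if ((x.2 : ℤ) : ZMod D) = v 1 then ((x.1 : ℂ) * z + (x.2 : ℂ)) ^ (-4 : ℤ) else 0) else 0

theorem b3c_summable (D : ℕ) (v : Fin 2 → ZMod D) (z : ℍ) : Summable (b3cF D v z) := by
  have h := (summable_prod_eisSummand (k := 4) (by norm_num) z).norm
  refine Summable.of_norm_bounded h fun x => ?_
  unfold b3cF
  split_ifs
  · simp [eisSummand]
  · simp
  · simp

theorem b3c_G4_eq (D : ℕ) (v : Fin 2 → ZMod D) (z : ℍ) :
    G4 D v z = ∑' c : ℤ, ∑' d : ℤ, b3cF D v z (c, d) := by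
  unfold G4
  rw [b3c_tsum_ite (fun x : Fin 2 → ℤ => redV D x = v) (fun x => eisSummand 4 x z),
    ← (finTwoArrowEquiv ℤ).symm.tsum_eq, ← Summable.tsum_prod (b3c_summable D v z)]
  refine tsum_congr fun x => ?_
  have h1 : redV D ![x.1, x.2] = v ↔
      ((x.1 : ℤ) : ZMod D) = v 0 ∧ ((x.2 : ℤ) : ZMod D) = v 1 := by
    constructor
    · intro h
      exact ⟨by rw [← h]; rfl, by rw [← h]; rfl⟩
    · rintro ⟨h0, h1⟩
      funext i
      fin_cases i
      · exact h0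
      · exact h1
  rw [finTwoArrowEquiv_symm_apply]
  unfold b3cF
  by_cases h0 : ((x.1 : ℤ) : ZMod D) = v 0
  · by_cases h2 : ((x.2 : ℤ) : ZMod D) = v 1
    · rw [if_pos (h1.2 ⟨h0, h2⟩), if_pos h0, if_pos h2]
      simp [eisSummand]
    · rw [if_neg (fun h => h2 (h1.1 h).2), if_pos h0, if_neg h2]
  · rw [if_neg (fun h => h0 (h1.1 h).1), if_neg h0]


theorem b3c_row_pos (D : ℕ) [NeZero D] (v : Fin 2 → ZMod D) (z : ℍ) (c : ℕ+) :
    ((D : ℂ) ^ 4 * 6 / (2 * π) ^ 4) * ∑' d : ℤ, b3cF D v z (((c : ℕ) : ℤ), d) =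
      ∑' m : ℕ+, (if (((c : ℕ) : ℕ) : ZMod D) = v 0 then
        (m : ℂ) ^ 3 * ((rootU D (((v 1).val : ℤ) * (m : ℤ)) : ℂˣ) : ℂ) *
          Function.Periodic.qParam D z ^ ((c : ℕ) * m : ℕ) else 0) := by
  by_cases h : (((c : ℕ) : ℕ) : ZMod D) = v 0
  · simp only [if_pos h]
    rw [← tsum_row D c c.pos (v 1) z,
      b3c_tsum_ite (fun d : ℤ => ((d : ℤ) : ZMod D) = v 1)
        (fun d => (((c : ℕ) : ℂ) * z + (d : ℂ)) ^ (-4 : ℤ))]
    congr 1
    refine tsum_congr fun d => ?_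
    unfold b3cF
    have h' : ((((c : ℕ) : ℤ) : ℤ) : ZMod D) = v 0 := by rw [← h]; push_cast; rfl
    simp only [if_pos h']
    push_cast
    rfl
  · simp only [if_neg h, tsum_zero]
    have h' : ¬ ((((c : ℕ) : ℤ) : ℤ) : ZMod D) = v 0 := by
      intro h2
      apply h
      rw [← h2]
      push_cast
      rfl
    unfold b3cF
    simp only [if_neg h', tsum_zero, mul_zero]

theorem b3c_row_neg (D : ℕ) [NeZero D] (v : Fin 2 → ZMod D) (z : ℍ) (c : ℕ+) :
    ((D : ℂ) ^ 4 * 6 / (2 * π) ^ 4) * ∑' d : ℤ, b3cF D v z (-((c : ℕ) : ℤ), d) =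
      ∑' m : ℕ+, (if (((c : ℕ) : ℕ) : ZMod D) = - v 0 then
        (m : ℂ) ^ 3 * ((rootU D (-(((v 1).val : ℤ) * (m : ℤ))) : ℂˣ) : ℂ) *
          Function.Periodic.qParam D z ^ ((c : ℕ) * m : ℕ) else 0) := by
  have hiff : ((-((c : ℕ) : ℤ) : ℤ) : ZMod D) = v 0 ↔ (((c : ℕ) : ℕ) : ZMod D) = - v 0 := by
    push_cast
    exact neg_eq_iff_eq_neg
  by_cases h : (((c : ℕ) : ℕ) : ZMod D) = - v 0
  · simp only [if_pos h]
    have h3 : ∀ m : ℕ+, rootU D (-(((v 1).val : ℤ) * (m : ℤ))) =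
        rootU D ((((-v 1).val : ℕ) : ℤ) * (m : ℤ)) := by
      intro m
      apply b3c_rootU_congr
      push_cast
      rw [ZMod.natCast_zmod_val, ZMod.natCast_zmod_val]
      ring
    simp only [h3]
    rw [← tsum_row D c c.pos (-v 1) z,
      b3c_tsum_ite (fun d : ℤ => ((d : ℤ) : ZMod D) = -v 1)
        (fun d => (((c : ℕ) : ℂ) * z + (d : ℂ)) ^ (-4 : ℤ)), ← tsum_comp_neg]
    congr 1
    refine tsum_congr fun d => ?_
    unfold b3cF
    simp only [if_pos (hiff.2 h)]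
    have h4 : ((-d : ℤ) : ZMod D) = v 1 ↔ ((d : ℤ) : ZMod D) = - v 1 := by
      push_cast
      exact neg_eq_iff_eq_neg
    by_cases h5 : ((d : ℤ) : ZMod D) = - v 1
    · rw [if_pos (h4.2 h5), if_pos h5]
      have h6 : (((-((c : ℕ) : ℤ) : ℤ) : ℂ) * (z : ℂ) + ((-d : ℤ) : ℂ)) =
          -(((c : ℕ) : ℂ) * z + (d : ℂ)) := by
        push_cast
        ring
      rw [h6]
      exact Even.neg_zpow (by decide) _
    · rw [if_neg (fun h => h5 (h4.1 h)), if_neg h5]
  · simp only [if_neg h, tsum_zero]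
    unfold b3cF
    simp only [if_neg (fun h2 => h (hiff.1 h2)), tsum_zero, mul_zero]

theorem b3c_row_zero (D : ℕ) [NeZero D] (v : Fin 2 → ZMod D) (z : ℍ) :
    ((D : ℂ) ^ 4 * 6 / (2 * π) ^ 4) * ∑' d : ℤ, b3cF D v z (0, d) = gCoeff D v 0 := by
  unfold gCoeff
  rw [if_pos rfl]
  by_cases h : v 0 = 0
  · rw [if_pos h, ← tsum_const D (v 1),
      b3c_tsum_ite (fun d : ℤ => ((d : ℤ) : ZMod D) = v 1) (fun d => ((d : ℂ)) ^ (-4 : ℤ))]
    congr 1
    refine tsum_congr fun d => ?_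
    unfold b3cF
    have h' : (((0 : ℤ) : ℤ) : ZMod D) = v 0 := by rw [h]; simp
    simp only [if_pos h']
    simp
  · rw [if_neg h]
    have h' : ¬ (((0 : ℤ) : ℤ) : ZMod D) = v 0 := by
      intro h2
      exact h (by rw [← h2]; simp)
    unfold b3cF
    simp only [if_neg h', tsum_zero, mul_zero]


/-- the two families on `ℕ+ × ℕ+`. -/
noncomputable def b3cA (D : ℕ) (w : ZMod D) (u : ℤ) (r : ℂ) (x : ℕ+ × ℕ+) : ℂ :=
  if (((x.1 : ℕ) : ℕ) : ZMod D) = w then
    (x.2 : ℂ) ^ 3 * ((rootU D (u * (x.2 : ℤ)) : ℂˣ) : ℂ) * r ^ ((x.1 : ℕ) * x.2 : ℕ) else 0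

theorem b3c_norm_rootU (D : ℕ) (b : ℤ) : ‖((rootU D b : ℂˣ) : ℂ)‖ = 1 := by
  show ‖Complex.exp (2 * Real.pi * Complex.I * b / D)‖ = 1
  have h : (2 * Real.pi * Complex.I * b / D : ℂ) = ((2 * Real.pi * b / D : ℝ) : ℂ) * Complex.I := by
    push_cast
    ring
  rw [h, Complex.norm_exp_ofReal_mul_I]

theorem b3c_summableA (D : ℕ) (w : ZMod D) (u : ℤ) {r : ℂ} (hr : ‖r‖ < 1) :
    Summable (b3cA D w u r) := by
  have h := (summable_prod_mul_pow (𝕜 := ℂ) 3 hr).norm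
  refine Summable.of_norm_bounded h fun x => ?_
  unfold b3cA
  split_ifs
  · rw [norm_mul, norm_mul, b3c_norm_rootU, mul_one, norm_mul]
  · rw [norm_zero]
    exact norm_nonneg _

theorem b3c_hasSum_sigma (D : ℕ) [NeZero D] (v : Fin 2 → ZMod D) {r : ℂ} (hr : ‖r‖ < 1) :
    HasSum (fun n : ℕ+ => gCoeff D v n • r ^ (n : ℕ))
      (∑' x, b3cA D (v 0) ((v 1).val : ℤ) r x + ∑' x, b3cA D (-v 0) (-((v 1).val : ℤ)) r x) := by
  have h1 := (b3c_summableA D (v 0) ((v 1).val : ℤ) hr).hasSum.add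
    (b3c_summableA D (-v 0) (-((v 1).val : ℤ)) hr).hasSum
  have h2 := (sigmaAntidiagonalEquivProd.hasSum_iff).2 h1
  have h3 := h2.sigma (fun n => hasSum_fintype _)
  convert h3 using 1
  funext n
  have hn : (n : ℕ) ≠ 0 := n.ne_zero
  set F : ℕ → ℕ → ℂ := fun c m =>
    (if ((c : ℕ) : ZMod D) = v 0 then
      (m : ℂ) ^ 3 * ((rootU D (((v 1).val : ℤ) * (m : ℤ)) : ℂˣ) : ℂ) * r ^ (c * m) else 0) +
    (if ((c : ℕ) : ZMod D) = -v 0 then
      (m : ℂ) ^ 3 * ((rootU D (-((v 1).val : ℤ) * (m : ℤ)) : ℂˣ) : ℂ) * r ^ (c * m) else 0) with hF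
  have h4 : ∀ b : (n : ℕ).divisorsAntidiagonal,
      ((fun b => b3cA D (v 0) ((v 1).val : ℤ) r b + b3cA D (-v 0) (-((v 1).val : ℤ)) r b) ∘
        ⇑sigmaAntidiagonalEquivProd) ⟨n, b⟩ = F b.1.1 b.1.2 := fun b => rfl
  rw [Finset.sum_congr rfl (fun b _ => h4 b),
    Finset.sum_coe_sort (n : ℕ).divisorsAntidiagonal (fun y => F y.1 y.2),
    Nat.sum_divisorsAntidiagonal' (f := F)]
  unfold gCoeff
  rw [if_neg hn, Finset.sum_smul]
  refine Finset.sum_congr rfl fun m hm => ?_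
  have h5 : (n : ℕ) / m * m = n := Nat.div_mul_cancel (Nat.dvd_of_mem_divisors hm)
  simp only [hF, h5, smul_eq_mul, add_mul, ite_mul, zero_mul, neg_mul]


/-- **T24-B3c** (assembly).  Split the (absolutely convergent, `EisensteinSeries.summable_eisSummand`/`summable_prod_eisSummand` restricted
to a subtype) sum over `(c,d) ≡ v` into `c = 0`, `c > 0`, `c < 0` (`(c z + d)^{-4} = (-c z - d)^{-4}`), use `tsum_row`, `tsum_const`, and
collect the terms with `c m = n` (model: Mathlib's `tsum_eisSummand_eq_tsum_sigma_mul_cexp_pow`, `tsum_prod_pow_eq_tsum_sigma`). -/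
theorem hasSum_G4n (D : ℕ) [NeZero D] (v : Fin 2 → ZMod D) (z : ℍ) :
    HasSum (fun n : ℕ => gCoeff D v n • Function.Periodic.qParam D z ^ n) (G4n D v z) := by
  have hD : (0 : ℝ) < D := by exact_mod_cast Nat.pos_of_ne_zero (NeZero.ne D)
  have hr : ‖Function.Periodic.qParam D z‖ < 1 := Function.Periodic.norm_qParam_lt_one hD z.im_pos
  have h1 := (hasSum_pnat_iff (f := fun n : ℕ => gCoeff D v n • Function.Periodic.qParam D z ^ n)).1
    (b3c_hasSum_sigma D v hr)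
  have hs := b3c_summable D v z
  suffices h : G4n D v z = ∑' x, b3cA D (v 0) ((v 1).val : ℤ) (Function.Periodic.qParam D z) x +
      ∑' x, b3cA D (-v 0) (-((v 1).val : ℤ)) (Function.Periodic.qParam D z) x +
      gCoeff D v 0 • Function.Periodic.qParam D z ^ 0 by
    rw [h]
    exact h1
  unfold G4n
  rw [b3c_G4_eq, tsum_int_eq_zero_add_tsum_pnat hs.prod, mul_add, mul_add, b3c_row_zero,
    ← tsum_mul_left, ← tsum_mul_left,
    (b3c_summableA D (v 0) ((v 1).val : ℤ) hr).tsum_prod,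
    (b3c_summableA D (-v 0) (-((v 1).val : ℤ)) hr).tsum_prod]
  have e1 : ∀ c : ℕ+, ((D : ℂ) ^ 4 * 6 / (2 * π) ^ 4) * ∑' d : ℤ, b3cF D v z (((c : ℕ+) : ℤ), d) =
      ∑' m : ℕ+, b3cA D (v 0) ((v 1).val : ℤ) (Function.Periodic.qParam D z) (c, m) :=
    fun c => b3c_row_pos D v z c
  have e2 : ∀ c : ℕ+, ((D : ℂ) ^ 4 * 6 / (2 * π) ^ 4) * ∑' d : ℤ, b3cF D v z (-((c : ℕ+) : ℤ), d) =
      ∑' m : ℕ+, b3cA D (-v 0) (-((v 1).val : ℤ)) (Function.Periodic.qParam D z) (c, m) := by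
    intro c
    rw [show ((c : ℕ+) : ℤ) = (((c : ℕ) : ℕ) : ℤ) from rfl, b3c_row_neg D v z c]
    refine tsum_congr fun m => ?_
    unfold b3cA
    simp only [neg_mul]
  simp only [e1, e2, pow_zero, smul_eq_mul, mul_one]
  ring

theorem gCoeff_mem_range (D : ℕ) [NeZero D] (v : Fin 2 → ZMod D) (n : ℕ) :
    gCoeff D v n ∈ iotaK.range := by
  have hq : ∀ x : ℚ, (x : ℂ) ∈ iotaK.range := fun x => ⟨(x : Kb), map_ratCast iotaK x⟩
  have hn : ∀ x : ℕ, (x : ℂ) ∈ iotaK.range := fun x => natCast_mem _ x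
  unfold gCoeff
  split_ifs with h1 h2
  · exact sum_mem fun b _ => mul_mem (rootU_mem_range _ _) (hq _)
  · exact zero_mem _
  · refine sum_mem fun m _ => add_mem ?_ ?_
    · split_ifs
      · exact mul_mem (pow_mem (hn _) _) (rootU_mem_range _ _)
      · exact zero_mem _
    · split_ifs
      · exact mul_mem (pow_mem (hn _) _) (rootU_mem_range _ _)
      · exact zero_mem _

theorem isBd_of_hasSum {D : ℕ} [NeZero D] {f : ℍ → ℂ} {c : ℕ → ℂ}
    (h : ∀ z : ℍ, HasSum (fun n : ℕ => c n • Function.Periodic.qParam D z ^ n) (f z)) :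
    IsBd D f := by
  have hD : (0 : ℝ) < D := by exact_mod_cast Nat.pos_of_ne_zero (NeZero.ne D)
  -- majorant
  have hmaj : ∀ t : ℝ, 0 < t → ∃ u : ℕ → ℝ, Summable u ∧ ∀ (n : ℕ) (w : ℂ), t ≤ w.im →
      ‖c n • Function.Periodic.qParam D w ^ n‖ ≤ u n := by
    intro t ht
    let z0 : ℍ := ⟨Complex.I * t, by simpa using ht⟩
    refine ⟨fun n => ‖c n • Function.Periodic.qParam D z0 ^ n‖, (h z0).summable.norm, ?_⟩
    intro n w hw
    show ‖c n • Function.Periodic.qParam D w ^ n‖ ≤ ‖c n • Function.Periodic.qParam D z0 ^ n‖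
    rw [norm_smul, norm_smul, norm_pow, norm_pow]
    gcongr
    rw [Function.Periodic.norm_qParam, Function.Periodic.norm_qParam]
    apply Real.exp_le_exp.mpr
    have e : ((z0 : ℍ) : ℂ).im = t := by
      show (Complex.I * (t : ℂ)).im = t
      simp
    rw [e]
    have hpi := Real.pi_pos
    apply div_le_div_of_nonneg_right _ hD.le
    nlinarith
  refine ⟨?_, ?_, ?_⟩
  · intro z
    by_cases hz : 0 < z.im
    · have hz' : 0 < (z + ((D : ℝ) : ℂ)).im := by simpa using hz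
      simp only [Function.comp_apply]
      rw [ofComplex_apply_of_im_pos hz, ofComplex_apply_of_im_pos hz']
      have h1 := h ⟨z, hz⟩
      have h2 := h ⟨z + ((D : ℝ) : ℂ), hz'⟩
      have e : Function.Periodic.qParam D (z + ((D : ℝ) : ℂ)) = Function.Periodic.qParam D z := by
        simp only [Function.Periodic.qParam]
        have hDc : ((D : ℝ) : ℂ) ≠ 0 := by exact_mod_cast hD.ne'
        have : 2 * (π : ℂ) * Complex.I * (z + ((D : ℝ) : ℂ)) / ((D : ℝ) : ℂ) =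
            2 * (π : ℂ) * Complex.I * z / ((D : ℝ) : ℂ) + 2 * (π : ℂ) * Complex.I := by
          field_simp
        rw [this, Complex.exp_add, Complex.exp_two_pi_mul_I, mul_one]
      change HasSum (fun n : ℕ => c n • Function.Periodic.qParam D (z + ((D : ℝ) : ℂ)) ^ n) _ at h2
      rw [e] at h2
      exact h2.unique h1
    · have hz1 : z.im ≤ 0 := not_lt.mp hz
      have hz' : (z + ((D : ℝ) : ℂ)).im ≤ 0 := by simpa using hz1
      simp only [Function.comp_apply]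
      rw [ofComplex_apply_of_im_nonpos hz1, ofComplex_apply_of_im_nonpos hz']
  · rw [UpperHalfPlane.mdifferentiable_iff]
    intro z0 hz0
    have hz0' : 0 < z0.im := hz0
    obtain ⟨u, hu, hle⟩ := hmaj (z0.im / 2) (by positivity)
    have hopen : IsOpen {w : ℂ | z0.im / 2 < w.im} :=
      isOpen_lt continuous_const Complex.continuous_im
    have hd : DifferentiableOn ℂ
        (fun w : ℂ => ∑' n : ℕ, c n • Function.Periodic.qParam D w ^ n)
        {w : ℂ | z0.im / 2 < w.im} := by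
      refine Complex.differentiableOn_tsum_of_summable_norm hu (fun n => ?_) hopen
        (fun n w hw => hle n w (le_of_lt hw))
      have : Differentiable ℂ (Function.Periodic.qParam (D : ℝ)) :=
        Function.Periodic.differentiable_qParam
      exact ((this.pow n).const_smul (c n)).differentiableOn
    have hmem : z0 ∈ {w : ℂ | z0.im / 2 < w.im} := by
      show z0.im / 2 < z0.im
      linarith
    have hda := (hd z0 hmem).differentiableAt (hopen.mem_nhds hmem)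
    refine DifferentiableAt.differentiableWithinAt ?_
    refine hda.congr_of_eventuallyEq ?_
    filter_upwards [hopen.mem_nhds hmem] with w hw
    have hw' : 0 < w.im := lt_trans (by positivity) hw
    simp only [Function.comp_apply]
    rw [ofComplex_apply_of_im_pos hw']
    exact (h ⟨w, hw'⟩).tsum_eq.symm
  · obtain ⟨u, hu, hle⟩ := hmaj 1 one_pos
    rw [isBoundedAtImInfty_iff]
    refine ⟨∑' n, u n, 1, fun z hz => ?_⟩
    exact (h z).norm_le_of_bounded hu.hasSum (fun n => hle n z hz)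

theorem isBd_G4n (D : ℕ) [NeZero D] (v : Fin 2 → ZMod D) : IsBd D (G4n D v) :=
  isBd_of_hasSum (hasSum_G4n D v)

theorem qExpansion_G4n (D : ℕ) [NeZero D] (v : Fin 2 → ZMod D) (n : ℕ) :
    (qExpansion D (G4n D v)).coeff n = gCoeff D v n :=
  expA_unique (isBd_G4n D v) (hasSum_G4n D v) n

/-! ### substitution `z ↦ (a z + b)/δ` in `D`-periodic functions (twin of `S24/ExpandA`, which is the case `D = 1`) -/

theorem isBd_preD {f : ℍ → ℂ} {D : ℕ} (hf : IsBd D f) {N a b δ : ℕ} (ha : 0 < a) (hδ : 0 < δ)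
    (hδN : δ * D ∣ N) : IsBd N (pre a b δ f) := by
  refine ⟨?_, ?_, ?_⟩
  · intro z
    by_cases hz : 0 < z.im
    · have hz' : 0 < (z + ((N : ℝ) : ℂ)).im := by simpa using hz
      rw [expA_pre_ofComplex a b δ f hz, expA_pre_ofComplex a b δ f hz']
      obtain ⟨k, rfl⟩ := hδN
      have h := (hf.1).nat_mul (a * k) (((a : ℂ) * z + b) / δ)
      rw [← h]
      congr 1
      have : (δ : ℂ) ≠ 0 := by exact_mod_cast hδ.ne'
      push_cast
      field_simp
      ring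
    · have hz1 : z.im ≤ 0 := not_lt.mp hz
      have hz' : (z + ((N : ℝ) : ℂ)).im ≤ 0 := by simpa using hz1
      simp only [Function.comp_apply]
      rw [ofComplex_apply_of_im_nonpos hz1, ofComplex_apply_of_im_nonpos hz']
  · have h1 := UpperHalfPlane.mdifferentiable_iff.mp hf.2.1
    rw [UpperHalfPlane.mdifferentiable_iff]
    have h2 : DifferentiableOn ℂ ((f ∘ ofComplex) ∘ (fun z : ℂ => ((a : ℂ) * z + b) / δ))
        {z | 0 < z.im} :=
      h1.comp (by fun_prop) (fun z hz => expA_im_pos b ha hδ hz)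
    exact h2.congr (fun z hz => expA_pre_ofComplex a b δ f hz)
  · obtain ⟨M, A, h⟩ := isBoundedAtImInfty_iff.mp hf.2.2
    rw [isBoundedAtImInfty_iff]
    refine ⟨M, A * δ / a, fun z hz => ?_⟩
    apply h
    rw [ofComplex_apply_of_im_pos (expA_im_pos b ha hδ z.im_pos)]
    show A ≤ (((a : ℂ) * z + b) / δ).im
    rw [expA_im]
    have ha' : (0 : ℝ) < a := by exact_mod_cast ha
    have hδ' : (0 : ℝ) < δ := by exact_mod_cast hδ
    rw [div_le_iff₀ ha'] at hz
    rw [le_div_iff₀ hδ']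
    have : (z : ℂ).im = z.im := rfl
    rw [this]
    linarith

theorem preD_qParam {D N a δ : ℕ} (b : ℕ) (hN : 0 < N) (hδ : 0 < δ) (hD : 0 < D)
    (hδN : δ * D ∣ N) (z : ℂ) :
    Function.Periodic.qParam D (((a : ℂ) * z + b) / δ) =
      (rootU (δ * D) b : ℂ) * Function.Periodic.qParam N z ^ (a * (N / (δ * D))) := by
  obtain ⟨k, rfl⟩ := hδN
  have hk : 0 < k := by
    rcases Nat.eq_zero_or_pos k with rfl | h'
    · simp at hN
    · exact h'
  rw [Nat.mul_div_cancel_left _ (Nat.mul_pos hδ hD)]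
  simp only [Function.Periodic.qParam, rootU, Units.val_mk0]
  rw [← Complex.exp_nat_mul, ← Complex.exp_add]
  congr 1
  have h1 : (δ : ℂ) ≠ 0 := by exact_mod_cast hδ.ne'
  have h2 : (k : ℂ) ≠ 0 := by exact_mod_cast hk.ne'
  have h3 : (D : ℂ) ≠ 0 := by exact_mod_cast hD.ne'
  push_cast
  field_simp
  ring

theorem preD_hasSum {f : ℍ → ℂ} {D : ℕ} (hf : IsBd D f) {N a b δ : ℕ} (hN : 0 < N) (ha : 0 < a)
    (hδ : 0 < δ) (hD : 0 < D) (hδN : δ * D ∣ N) (τ : ℍ) :
    HasSum (fun m : ℕ => (if a * (N / (δ * D)) ∣ m then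
        (rootU (δ * D) b : ℂ) ^ (m / (a * (N / (δ * D)))) *
          (qExpansion D f).coeff (m / (a * (N / (δ * D))))
        else 0) • Function.Periodic.qParam N τ ^ m) (pre a b δ f τ) := by
  have hk : 0 < a * (N / (δ * D)) :=
    Nat.mul_pos ha (Nat.div_pos (Nat.le_of_dvd hN hδN) (Nat.mul_pos hδ hD))
  set k := a * (N / (δ * D)) with hkdef
  have hw := expA_im_pos b ha hδ τ.im_pos
  have hD' : (0 : ℝ) < (D : ℝ) := by exact_mod_cast hD
  have h := hasSum_qExpansion (h := D) hD' hf.1 hf.2.1 hf.2.2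
    (ofComplex (((a : ℂ) * τ + b) / δ))
  rw [ofComplex_apply_of_im_pos hw] at h
  have hq : Function.Periodic.qParam D ((⟨((a : ℂ) * τ + b) / δ, hw⟩ : ℍ) : ℂ) =
      (rootU (δ * D) b : ℂ) * Function.Periodic.qParam N τ ^ k := preD_qParam b hN hδ hD hδN τ
  rw [hq] at h
  have hval : pre a b δ f τ = f ⟨((a : ℂ) * τ + b) / δ, hw⟩ := by
    rw [pre, ofComplex_apply_of_im_pos hw]
  rw [hval]
  have hinj : Function.Injective (fun n : ℕ => k * n) := fun x y hxy =>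
    Nat.eq_of_mul_eq_mul_left hk hxy
  refine (Function.Injective.hasSum_iff hinj ?_).mp ?_
  · intro m hm
    have : ¬ k ∣ m := fun ⟨j, hj⟩ => hm ⟨j, hj.symm⟩
    simp [this]
  · convert h using 1
    funext n
    simp only [Function.comp_apply, dvd_mul_right, if_true, Nat.mul_div_cancel_left _ hk,
      smul_eq_mul]
    rw [mul_pow, ← pow_mul]
    ring

theorem qExpansion_preD {f : ℍ → ℂ} {D : ℕ} [NeZero D] (hf : IsBd D f) {N a b δ : ℕ} [NeZero N]
    (ha : 0 < a) (hδ : 0 < δ) (hδN : δ * D ∣ N) [NeZero (a * (N / (δ * D)))] :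
    HahnSeries.ofPowerSeries ℤ ℂ (qExpansion N (pre a b δ f)) =
      ModularCurve.qExpand ℂ (a * (N / (δ * D)))
        (twist (rootU (δ * D) b) (HahnSeries.ofPowerSeries ℤ ℂ (qExpansion D f))) := by
  have hN : 0 < N := Nat.pos_of_ne_zero (NeZero.ne N)
  have hD : 0 < D := Nat.pos_of_ne_zero (NeZero.ne D)
  have hk : 0 < a * (N / (δ * D)) := Nat.pos_of_ne_zero (NeZero.ne _)
  have hbd : IsBd N (pre a b δ f) := isBd_preD hf ha hδ hδN
  have hc := expA_unique hbd (preD_hasSum (b := b) hf hN ha hδ hD hδN)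
  ext n
  rw [PowerSeries.coeff_coe]
  by_cases hkn : ((a * (N / (δ * D)) : ℕ) : ℤ) ∣ n
  · obtain ⟨j, rfl⟩ := hkn
    rw [ModularCurve.qExpand_coeff_mul, twist_coeff, PowerSeries.coeff_coe]
    have hk' : (0 : ℤ) < ((a * (N / (δ * D)) : ℕ) : ℤ) := by exact_mod_cast hk
    by_cases hj : j < 0
    · rw [if_pos hj, if_pos (mul_neg_of_pos_of_neg hk' hj), mul_zero]
    · rw [if_neg hj, if_neg (by
        have : 0 ≤ j := not_lt.mp hj
        have := mul_nonneg hk'.le this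
        omega), hc]
      obtain ⟨i, rfl⟩ := Int.eq_ofNat_of_zero_le (not_lt.mp hj)
      have h1 : (((a * (N / (δ * D)) : ℕ) : ℤ) * (i : ℤ)).natAbs = a * (N / (δ * D)) * i := by
        rw [← Nat.cast_mul, Int.natAbs_natCast]
      rw [h1, if_pos (dvd_mul_right _ _), Nat.mul_div_cancel_left _ hk, Int.natAbs_natCast,
        zpow_natCast]
  · rw [ModularCurve.qExpand_coeff_of_not_dvd _ _ hkn]
    split_ifs with h
    · rfl
    · rw [hc, if_neg]
      intro hd
      apply hkn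
      have : (n.natAbs : ℤ) = n := Int.natAbs_of_nonneg (not_lt.mp h)
      rw [← this]
      exact_mod_cast hd

/-! ### the conjugates of `y_v (e z)` -/

/-- **T24-B7** (Hermite normal form).  copy of `S24.act_jd_eq_pre`, with `yv_smul` instead of `jFun_smul` (twice: for `γ` and for the
translation `T ^ k`). -/
theorem act_ye_eq_pre (D : ℕ) [NeZero D] (g : SL(2, ℤ)) {e : ℕ} (he : 0 < e) (v : Fin 2 → ZMod D) :
    ∃ (a b δ : ℕ) (v' : Fin 2 → ZMod D), a * δ = e ∧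
      act g (pre e 0 1 (yv D v)) = pre a b δ (yv D v') := by
  set h : SL(2, ℤ) := g⁻¹ with hh
  have hdet : h 0 0 * h 1 1 - h 0 1 * h 1 0 = 1 := by
    have := h.det_coe
    rwa [Matrix.det_fin_two] at this
  obtain ⟨r, s, z', x, A, D', hrs, hAD, hA, hD, h1, h2, h3, -⟩ :=
    expandB_triangular_int e he.ne' _ _ _ _ hdet
  set B : ℤ := r * (e * h 0 1) + s * h 1 1 with hB
  have hDz : (0 : ℤ) < D' := by exact_mod_cast hD
  obtain ⟨b, hb⟩ : ∃ b : ℕ, (b : ℤ) = B % D' := by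
    exact ⟨(B % D').toNat, Int.toNat_of_nonneg (Int.emod_nonneg _ hDz.ne')⟩
  set k : ℤ := B / D' with hk
  have hBk : B = b + D' * k := by
    rw [hb, hk]; exact (Int.emod_add_mul_ediv B D').symm
  let γ : SL(2, ℤ) := ⟨!![r, s; -z', x], by rw [Matrix.det_fin_two_of]; linarith⟩
  refine ⟨A, b, D', vmul D (vmul D v γ⁻¹) (ModularGroup.T ^ k), hAD, ?_⟩
  funext z
  rw [act_apply, ← hh]
  unfold pre
  set w' : ℍ := ofComplex (((e : ℂ) * ((h • z : ℍ) : ℂ) + (0 : ℕ)) / (1 : ℕ)) with hw'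
  set w : ℍ := ofComplex (((A : ℂ) * z + b) / D') with hw
  have cw' : (w' : ℂ) = (e : ℂ) * ((h • z : ℍ) : ℂ) := by
    rw [hw', expandB_coe_ofComplex e 0 1 he one_pos]
    simp
  have cw : (w : ℂ) = ((A : ℂ) * z + b) / D' := expandB_coe_ofComplex A b D' hA hD z
  have hden := expandB_denom_ne h z
  have hDc : (D' : ℂ) ≠ 0 := by exact_mod_cast hD.ne'
  have key : γ • w' = ModularGroup.T ^ k • w := by
    apply UpperHalfPlane.ext
    rw [modular_T_zpow_smul, coe_vadd]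
    rw [expandB_coe_smul, cw, cw', expandB_coe_smul]
    have g00 : γ 0 0 = r := rfl
    have g01 : γ 0 1 = s := rfl
    have g10 : γ 1 0 = -z' := rfl
    have g11 : γ 1 1 = x := rfl
    rw [g00, g01, g10, g11]
    have e1 : (r : ℂ) * (e * (h 0 0 : ℤ)) + s * (h 1 0 : ℤ) = A := by exact_mod_cast h1
    have e2 : -(z' : ℂ) * (e * (h 0 0 : ℤ)) + x * (h 1 0 : ℤ) = 0 := by exact_mod_cast h2
    have e3 : -(z' : ℂ) * (e * (h 0 1 : ℤ)) + x * (h 1 1 : ℤ) = D' := by exact_mod_cast h3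
    have e4 : (r : ℂ) * (e * (h 0 1 : ℤ)) + s * (h 1 1 : ℤ) = b + D' * k := by
      rw [hB] at hBk
      exact_mod_cast hBk
    set P : ℂ := (h 0 0 : ℤ) * (z : ℂ) + (h 0 1 : ℤ) with hP
    set Q : ℂ := (h 1 0 : ℤ) * (z : ℂ) + (h 1 1 : ℤ) with hQ
    have n1 : (r : ℂ) * (e * (P / Q)) + s = ((A : ℂ) * z + b + D' * k) / Q := by
      rw [eq_div_iff hden]
      have : ((r : ℂ) * (e * (P / Q)) + s) * Q = r * (e * P) + s * Q := by field_simp
      rw [this, hP, hQ]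
      linear_combination (z : ℂ) * e1 + e4
    have n2 : ((-z' : ℤ) : ℂ) * (e * (P / Q)) + x = (D' : ℂ) / Q := by
      rw [eq_div_iff hden]
      have : (((-z' : ℤ) : ℂ) * (e * (P / Q)) + x) * Q = -(z' : ℂ) * (e * P) + x * Q := by
        push_cast
        field_simp
      rw [this, hP, hQ]
      linear_combination (z : ℂ) * e2 + e3
    rw [n1, n2]
    push_cast
    field_simp
    ring
  have e5 : w' = γ⁻¹ • (γ • w') := by rw [inv_smul_smul]
  rw [e5, yv_smul, key, yv_smul]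

theorem pre_yv_mul (D a b δ : ℕ) (v : Fin 2 → ZMod D) :
    pre a b δ (yv D v) * discriminant ^ a =
      pre a b δ (G4n D v) * pre a b δ E₄ ^ 2 *
        (fun z => discriminant z ^ a / pre a b δ discriminant z) := by
  funext z
  simp only [Pi.mul_apply, Pi.pow_apply, pre, yv]
  ring

theorem pre_yv_mem_perSub {D N a b δ : ℕ} [NeZero D] [NeZero N] (v : Fin 2 → ZMod D) (ha : 0 < a)
    (hδ : 0 < δ) (hδN : δ * D ∣ N) : pre a b δ (yv D v) ∈ perSub N := by
  have hδN' : δ ∣ N := (Dvd.intro _ rfl).trans hδN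
  refine ⟨a, ?_⟩
  rw [pre_yv_mul]
  exact ((isBd_preD (isBd_G4n D v) ha hδ hδN).mul ((isBd_pre expandC_isBd_E4 ha hδ hδN').pow 2)).mul
    (expandC_isBd_quot b ha hδ hδN')

theorem ofPowerSeries_mem_range {p : PowerSeries ℂ} (h : ∀ n, p.coeff n ∈ iotaK.range) :
    HahnSeries.ofPowerSeries ℤ ℂ p ∈ (ModularCurve.coeffMap iotaK).range := by
  rw [twist_mem_range_coeffMap_iff]
  intro n
  rw [PowerSeries.coeff_coe]
  split_ifs
  · exact zero_mem _
  · exact h _

theorem map_int_coeff_mem_range (p : PowerSeries ℤ) (n : ℕ) :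
    (p.map (Int.castRingHom ℂ)).coeff n ∈ iotaK.range := by
  rw [PowerSeries.coeff_map]
  exact intCast_mem _ _

theorem TInf_pre_yv_mem_range {D N a b δ : ℕ} [NeZero D] [NeZero N] (v : Fin 2 → ZMod D)
    (ha : 0 < a) (hδ : 0 < δ) (hδN : δ * D ∣ N) :
    TInf N ⟨pre a b δ (yv D v), pre_yv_mem_perSub v ha hδ hδN⟩ ∈
      (ModularCurve.coeffMap iotaK).range := by
  have hN : 0 < N := Nat.pos_of_ne_zero (NeZero.ne N)
  have hD0 : 0 < D := Nat.pos_of_ne_zero (NeZero.ne D)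
  have hδN' : δ ∣ N := (Dvd.intro _ rfl).trans hδN
  have : NeZero (a * (N / δ)) :=
    ⟨(Nat.mul_pos ha (Nat.div_pos (Nat.le_of_dvd hN hδN') hδ)).ne'⟩
  have : NeZero (a * (N / (δ * D))) :=
    ⟨(Nat.mul_pos ha (Nat.div_pos (Nat.le_of_dvd hN hδN) (Nat.mul_pos hδ hD0))).ne'⟩
  have hG : IsBd N (pre a b δ (G4n D v)) := isBd_preD (isBd_G4n D v) ha hδ hδN
  have hE : IsBd N (pre a b δ E₄) := isBd_pre expandC_isBd_E4 ha hδ hδN'
  have hD : IsBd N (pre a b δ discriminant) := isBd_pre (isBd_discriminant 1) ha hδ hδN'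
  have hmul : (⟨pre a b δ (yv D v), pre_yv_mem_perSub v ha hδ hδN⟩ : perSub N) *
      ⟨pre a b δ discriminant, hD.isPer⟩ =
        ⟨pre a b δ (G4n D v), hG.isPer⟩ * ⟨pre a b δ E₄, hE.isPer⟩ ^ 2 := by
    apply Subtype.ext
    funext z
    show pre a b δ (yv D v) z * pre a b δ discriminant z =
      pre a b δ (G4n D v) z * pre a b δ E₄ z ^ 2
    simp only [pre, yv]
    rw [div_mul_cancel₀ _ (discriminant_ne_zero _)]
  have h1 := congrArg (TInf N) hmul
  rw [map_mul, map_mul, map_pow, TInf_of_isBd N ⟨pre a b δ discriminant, hD.isPer⟩ hD,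
    TInf_of_isBd N ⟨pre a b δ E₄, hE.isPer⟩ hE,
    TInf_of_isBd N ⟨pre a b δ (G4n D v), hG.isPer⟩ hG] at h1
  simp only at h1
  have r1 : HahnSeries.ofPowerSeries ℤ ℂ (qExpansion N (pre a b δ discriminant)) ∈
      (ModularCurve.coeffMap iotaK).range := by
    rw [qExpansion_pre (isBd_discriminant 1) ha hδ hδN']
    refine qExpand_mem_range _ _ (twist_mem_range _ (rootU_mem_range _ _) _ ?_)
    rw [Fermat.Agent.S28.qExpansion_discriminant]
    have : (PowerSeries.X : PowerSeries ℂ) * ModularCurve.dedekindEtaUnit.map (Int.castRingHom ℂ) =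
        (PowerSeries.X * ModularCurve.dedekindEtaUnit).map (Int.castRingHom ℂ) := by
      rw [map_mul, PowerSeries.map_X]
    rw [this]
    exact ofPowerSeries_mem_range (map_int_coeff_mem_range _)
  have r2 : HahnSeries.ofPowerSeries ℤ ℂ (qExpansion N (pre a b δ E₄)) ∈
      (ModularCurve.coeffMap iotaK).range := by
    rw [qExpansion_pre expandC_isBd_E4 ha hδ hδN']
    refine qExpand_mem_range _ _ (twist_mem_range _ (rootU_mem_range _ _) _ ?_)
    rw [Fermat.Agent.S28.qExpansion_E4]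
    exact ofPowerSeries_mem_range (map_int_coeff_mem_range _)
  have r3 : HahnSeries.ofPowerSeries ℤ ℂ (qExpansion N (pre a b δ (G4n D v))) ∈
      (ModularCurve.coeffMap iotaK).range := by
    rw [qExpansion_preD (isBd_G4n D v) ha hδ hδN]
    refine qExpand_mem_range _ _ (twist_mem_range _ (rootU_mem_range _ _) _ ?_)
    refine ofPowerSeries_mem_range fun n => ?_
    rw [qExpansion_G4n]
    exact gCoeff_mem_range D v n
  have hne : HahnSeries.ofPowerSeries ℤ ℂ (qExpansion N (pre a b δ discriminant)) ≠ 0 := by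
    intro h0
    have h2 := (tinfE_eq_zero_iff hD).mp h0
    exact discriminant_ne_zero _ (congrFun h2 I)
  obtain ⟨d', hd'⟩ := r1
  obtain ⟨e', he'⟩ := r2
  obtain ⟨g', hg'⟩ := r3
  have hd0 : d' ≠ 0 := by
    rintro rfl
    rw [map_zero] at hd'
    exact hne hd'.symm
  refine ⟨g' * e' ^ 2 / d', ?_⟩
  rw [map_div₀, map_mul, map_pow, hd', he', hg', ← h1, mul_div_cancel_right₀ _ hne]

/-- **T24-B8c.** -/
theorem mdiff_yv (D : ℕ) [NeZero D] (v : Fin 2 → ZMod D) : MDiff (yv D v) := by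
  have h1 : MDiff (G4n D v) := (isBd_G4n D v).2.1
  exact (h1.mul ((E₄.holo').pow 2)).div CuspForm.discriminant.holo' discriminant_ne_zero

/-! ### the functions `t_b (e z)` -/

theorem rootU_congr (D : ℕ) [NeZero D] {m m' : ℤ} (h : (m : ZMod D) = (m' : ZMod D)) :
    rootU D m = rootU D m' := by
  rw [ZMod.intCast_eq_intCast_iff_dvd_sub] at h
  obtain ⟨k, hk⟩ := h
  apply Units.ext
  show Complex.exp (2 * Real.pi * Complex.I * m / D) = Complex.exp (2 * Real.pi * Complex.I * m' / D)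
  have hD : (D : ℂ) ≠ 0 := by exact_mod_cast NeZero.ne D
  have e : (m' : ℂ) = m + D * k := by
    have : m' = m + D * k := by linarith
    exact_mod_cast this
  rw [e]
  have : 2 * (Real.pi : ℂ) * Complex.I * (m + D * k) / D =
      2 * (Real.pi : ℂ) * Complex.I * m / D + k * (2 * (Real.pi : ℂ) * Complex.I) := by
    field_simp
  rw [this, Complex.exp_add, Complex.exp_int_mul_two_pi_mul_I, mul_one]

theorem te_eq_sum (D : ℕ) [NeZero D] (e : ℕ) (b : ZMod D) :
    te D e b = (fun _ => (1 / (D : ℂ))) * ∑ a : ZMod D,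
      (fun _ => ((rootU D (-((a.val : ℤ) * (b.val : ℤ))) : ℂˣ) : ℂ)) * pre e 0 1 (yv D ![0, a]) := by
  funext z
  simp only [te, pre, tb, Pi.mul_apply, Finset.sum_apply]

theorem te_mem_Btil {N e : ℕ} [NeZero N] [Cond N] (he : e * Cond.D N ∣ N) (b : ZMod (Cond.D N)) :
    te (Cond.D N) e b ∈ Btil N := by
  rw [te_eq_sum]
  have hc : ∀ c : ℂ, c ∈ iotaK.range → (fun _ : ℍ => c) ∈ Btil N := by
    rintro c ⟨x, rfl⟩
    exact constK_mem_Btil N x
  refine mul_mem (hc _ ?_) (sum_mem fun a _ => mul_mem (hc _ (rootU_mem_range _ _)) (ye_mem_Btil he _))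
  exact ⟨1 / (Cond.D N : Kb), by simp⟩

theorem te_neg (D : ℕ) [NeZero D] (e : ℕ) (b : ZMod D) : te D e (-b) = te D e b := by
  rw [te_eq_sum, te_eq_sum]
  congr 1
  refine Fintype.sum_equiv (Equiv.neg (ZMod D)) _ _ fun a => ?_
  have h1 : rootU D (-((a.val : ℤ) * ((-b).val : ℤ))) =
      rootU D (-((((Equiv.neg (ZMod D)) a).val : ℤ) * (b.val : ℤ))) := by
    apply rootU_congr
    push_cast
    simp
  have h2 : yv D ![0, (Equiv.neg (ZMod D)) a] = yv D ![0, a] := by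
    rw [← yv_neg D ![0, a]]
    congr 1
    funext i
    fin_cases i <;> simp
  rw [h1, h2]

theorem act_ye_of_mem_Gamma0 {N e : ℕ} [NeZero N] [Cond N] (he : e * Cond.D N ∣ N)
    (a : ZMod (Cond.D N)) (g : SL(2, ℤ)) (hg : g ∈ Gamma0 N) :
    act g (pre e 0 1 (yv (Cond.D N) ![0, a])) =
      pre e 0 1 (yv (Cond.D N) ![0, a * ((g 0 0 : ℤ) : ZMod (Cond.D N))]) := by
  have hN : 0 < N := Nat.pos_of_ne_zero (NeZero.ne N)
  have hd0 : 0 < e := Nat.pos_of_dvd_of_pos ((Dvd.intro _ rfl).trans he) hN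
  set h : SL(2, ℤ) := g⁻¹ with hh
  have hdet : h 0 0 * h 1 1 - h 0 1 * h 1 0 = 1 := by
    have := h.det_coe
    rwa [Matrix.det_fin_two] at this
  have hg' : ((e * Cond.D N : ℕ) : ℤ) ∣ h 1 0 := by
    rw [Gamma0_mem, ZMod.intCast_zmod_eq_zero_iff_dvd] at hg
    have e' : h 1 0 = - g 1 0 := by
      rw [hh, Matrix.SpecialLinearGroup.SL2_inv_expl]
      rfl
    rw [e']
    exact (Int.dvd_neg).mpr (dvd_trans (by exact_mod_cast he) hg)
  have h11 : h 1 1 = g 0 0 := by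
    rw [hh, Matrix.SpecialLinearGroup.SL2_inv_expl]
    rfl
  obtain ⟨r', hr'⟩ := hg'
  push_cast at hr'
  let γ : SL(2, ℤ) := ⟨!![h 0 0, e * h 0 1; Cond.D N * r', h 1 1], by
    rw [Matrix.det_fin_two_of]; rw [hr'] at hdet; linarith⟩
  funext z
  rw [act_apply, ← hh]
  unfold pre
  set w' : ℍ := ofComplex (((e : ℂ) * ((h • z : ℍ) : ℂ) + (0 : ℕ)) / (1 : ℕ)) with hw'
  set w : ℍ := ofComplex (((e : ℂ) * z + (0 : ℕ)) / (1 : ℕ)) with hw
  have cw' : (w' : ℂ) = (e : ℂ) * ((h • z : ℍ) : ℂ) := by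
    rw [hw', expandB_coe_ofComplex e 0 1 hd0 one_pos]
    simp
  have cw : (w : ℂ) = (e : ℂ) * z := by
    rw [hw, expandB_coe_ofComplex e 0 1 hd0 one_pos]
    simp
  have hden := expandB_denom_ne h z
  have g00 : γ 0 0 = h 0 0 := rfl
  have g01 : γ 0 1 = e * h 0 1 := rfl
  have g10 : γ 1 0 = Cond.D N * r' := rfl
  have g11 : γ 1 1 = h 1 1 := rfl
  have key : w' = γ • w := by
    apply UpperHalfPlane.ext
    rw [expandB_coe_smul, eq_div_iff (expandB_denom_ne γ w)]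
    rw [g00, g01, g10, g11, cw, cw', expandB_coe_smul]
    have e1 : ((h 1 0 : ℤ) : ℂ) = e * Cond.D N * r' := by exact_mod_cast hr'
    rw [e1] at hden ⊢
    have e2 : ((Cond.D N * r' : ℤ) : ℂ) * ((e : ℂ) * z) + (h 1 1 : ℤ) =
        (e : ℂ) * Cond.D N * r' * z + (h 1 1 : ℤ) := by push_cast; ring
    rw [e2, mul_div_assoc', div_mul_cancel₀ _ hden]
    push_cast
    ring
  rw [key, yv_smul]
  congr 1
  funext i
  fin_cases i
  · simp [vmul, g10]
  · simp [vmul, g11, h11]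

theorem act_te {N e : ℕ} [NeZero N] [Cond N] (he : e * Cond.D N ∣ N) (b : ZMod (Cond.D N))
    (g : SL(2, ℤ)) (hg : g ∈ Gamma0 N) :
    act g (te (Cond.D N) e b) = te (Cond.D N) e (b * ((g 1 1 : ℤ) : ZMod (Cond.D N))) := by
  rw [te_eq_sum, te_eq_sum, map_mul, map_sum]
  congr 1
  have hdiag := gam_diag hg
  set u : ZMod (Cond.D N) := ((g 0 0 : ℤ) : ZMod (Cond.D N)) with hu
  set u' : ZMod (Cond.D N) := ((g 1 1 : ℤ) : ZMod (Cond.D N)) with hu'
  let E : ZMod (Cond.D N) ≃ ZMod (Cond.D N) :=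
    { toFun := fun a => a * u
      invFun := fun a => a * u'
      left_inv := fun a => by simp only [mul_assoc, hdiag, mul_one]
      right_inv := fun a => by
        simp only [mul_assoc]
        rw [mul_comm u' u, hdiag, mul_one] }
  refine Fintype.sum_equiv E _ _ fun a => ?_
  rw [map_mul, act_ye_of_mem_Gamma0 he a g hg]
  have h1 : rootU (Cond.D N) (-((a.val : ℤ) * (b.val : ℤ))) =
      rootU (Cond.D N) (-(((E a).val : ℤ) * ((b * u').val : ℤ))) := by
    apply rootU_congr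
    push_cast
    simp only [ZMod.natCast_val, ZMod.cast_id', id_eq]
    show -(a * b) = -(a * u * (b * u'))
    have : a * u * (b * u') = a * b * (u * u') := by ring
    rw [this, hdiag, mul_one]
  rw [h1]
  rfl

theorem act_te_of_mem_Gam {N e : ℕ} [NeZero N] [Cond N] (he : e * Cond.D N ∣ N)
    (b : ZMod (Cond.D N)) (g : SL(2, ℤ)) (hg : g ∈ Gam N) :
    act g (te (Cond.D N) e b) = te (Cond.D N) e b := by
  rw [act_te he b g hg.1]
  rcases hg.2 with h | h
  · rw [h, mul_one]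
  · rw [h, mul_neg, mul_one, te_neg]

end Fermat.Agent.T24
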