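import Fermat.Agent.S48.T24.Base
import Fermat.Prelude.Def_ModularCurve_X0ModL

set_option autoImplicit false

/-! # T24: consequences for `Btil` (twin of the end of `S24/ExpandC` and of `S24/HolB`) -/

open UpperHalfPlane ModularForm EisensteinSeries CongruenceSubgroup
open scoped MatrixGroups Manifold

namespace Fermat.Agent.T24

open Fermat.Agent.S24

theorem pos_of_mul_dvd {N e D : ℕ} [NeZero N] (he : e * D ∣ N) : 0 < e :=
  Nat.pos_of_ne_zero (by
    rintro rfl
    rw [zero_mul] at he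
    exact NeZero.ne N (Nat.eq_zero_of_zero_dvd he))

theorem Btil_le_perSub (N : ℕ) [NeZero N] [Cond N] : Btil N ≤ perSub N := by
  rw [Btil, Subring.closure_le]
  rintro f ((⟨c, rfl⟩ | ⟨g, d, hd, rfl⟩) | ⟨g, e, v, he, rfl⟩)
  · exact (isBd_const N (iotaK c)).isPer
  · have hN : 0 < N := Nat.pos_of_ne_zero (NeZero.ne N)
    have hd0 : 0 < d := Nat.pos_of_dvd_of_pos hd hN
    obtain ⟨a, b, δ, hab, h, -⟩ := act_jd_eq_pre g hd0
    have ha : 0 < a := Nat.pos_of_ne_zero (by rintro rfl; simp at hab; omega)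
    have hδ : 0 < δ := Nat.pos_of_ne_zero (by rintro rfl; simp at hab; omega)
    show act g (jd d) ∈ perSub N
    rw [h]
    exact pre_jFun_mem_perSub ha hδ ((Dvd.intro_left a hab).trans hd)
  · have he0 : 0 < e := pos_of_mul_dvd he
    obtain ⟨a, b, δ, v', hab, h⟩ := act_ye_eq_pre (Cond.D N) g he0 v
    have ha : 0 < a := Nat.pos_of_ne_zero (by rintro rfl; simp at hab; omega)
    have hδ : 0 < δ := Nat.pos_of_ne_zero (by rintro rfl; simp at hab; omega)
    show act g (pre e 0 1 (yv (Cond.D N) v)) ∈ perSub N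
    rw [h]
    exact pre_yv_mem_perSub v' ha hδ
      ((Nat.mul_dvd_mul_right (Dvd.intro_left a hab) _).trans he)

theorem Btil_le_holSub (N : ℕ) [NeZero N] [Cond N] : Btil N ≤ holSub := by
  rw [Btil, Subring.closure_le]
  rintro f ((⟨a, rfl⟩ | ⟨g, d, hd, rfl⟩) | ⟨g, e, v, he, rfl⟩)
  · exact mdifferentiable_const
  · have hd0 : 0 < d := Nat.pos_of_dvd_of_pos hd (Nat.pos_of_ne_zero (NeZero.ne N))
    exact holB_mdiff_act (holB_mdiff_pre mdiff_jFun 0 hd0 one_pos) g
  · exact holB_mdiff_act (holB_mdiff_pre (mdiff_yv _ v) 0 (pos_of_mul_dvd he) one_pos) g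

theorem TInf_Btil_mem_range (N : ℕ) [NeZero N] [Cond N] (b : ℍ → ℂ) (hb : b ∈ Btil N) :
    TInf N ⟨b, Btil_le_perSub N hb⟩ ∈ (ModularCurve.coeffMap iotaK).range := by
  induction hb using Subring.closure_induction with
  | mem x hx =>
    rcases hx with (⟨c, rfl⟩ | ⟨g, d, hd, rfl⟩) | ⟨g, e, v, he, rfl⟩
    · have := TInf_const N (iotaK c) (isBd_const N (iotaK c)).isPer
      refine ⟨HahnSeries.C c, ?_⟩
      refine Eq.trans ?_ this.symm
      exact ModularCurve.coeffMap_single iotaK 0 c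
    · have hN : 0 < N := Nat.pos_of_ne_zero (NeZero.ne N)
      have hd0 : 0 < d := Nat.pos_of_dvd_of_pos hd hN
      obtain ⟨a, b, δ, hab, h, -⟩ := act_jd_eq_pre g hd0
      have ha : 0 < a := Nat.pos_of_ne_zero (by rintro rfl; simp at hab; omega)
      have hδ : 0 < δ := Nat.pos_of_ne_zero (by rintro rfl; simp at hab; omega)
      have hδN : δ ∣ N := (Dvd.intro_left a hab).trans hd
      have : NeZero (a * (N / δ)) :=
        ⟨(Nat.mul_pos ha (Nat.div_pos (Nat.le_of_dvd hN hδN) hδ)).ne'⟩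
      rw [expandC_TInf_congr N h _ (pre_jFun_mem_perSub ha hδ hδN), TInf_pre_jFun ha hδ hδN]
      exact qExpand_mem_range _ _ (twist_mem_range _ (rootU_mem_range _ _) _ expandC_jq_mem_range)
    · have he0 : 0 < e := pos_of_mul_dvd he
      obtain ⟨a, b, δ, v', hab, h⟩ := act_ye_eq_pre (Cond.D N) g he0 v
      have ha : 0 < a := Nat.pos_of_ne_zero (by rintro rfl; simp at hab; omega)
      have hδ : 0 < δ := Nat.pos_of_ne_zero (by rintro rfl; simp at hab; omega)
      have hδN : δ * Cond.D N ∣ N := (Nat.mul_dvd_mul_right (Dvd.intro_left a hab) _).trans he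
      rw [expandC_TInf_congr N h _ (pre_yv_mem_perSub v' ha hδ hδN)]
      exact TInf_pre_yv_mem_range v' ha hδ hδN
  | zero =>
    rw [expandC_TInf_congr N rfl _ (perSub N).zero_mem]
    exact (map_zero (TInf N)).symm ▸ Subring.zero_mem _
  | one =>
    rw [expandC_TInf_congr N rfl _ (perSub N).one_mem]
    exact (map_one (TInf N)).symm ▸ Subring.one_mem _
  | add x y hx hy ihx ihy =>
    have : TInf N ⟨x + y, Btil_le_perSub N (add_mem hx hy)⟩ =
      TInf N ⟨x, Btil_le_perSub N hx⟩ + TInf N ⟨y, Btil_le_perSub N hy⟩ := by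
      rw [← map_add]; rfl
    rw [this]; exact add_mem ihx ihy
  | neg x hx ihx =>
    have : TInf N ⟨-x, Btil_le_perSub N (neg_mem hx)⟩ = - TInf N ⟨x, Btil_le_perSub N hx⟩ := by
      rw [← map_neg]; rfl
    rw [this]; exact neg_mem ihx
  | mul x y hx hy ihx ihy =>
    have : TInf N ⟨x * y, Btil_le_perSub N (mul_mem hx hy)⟩ =
      TInf N ⟨x, Btil_le_perSub N hx⟩ * TInf N ⟨y, Btil_le_perSub N hy⟩ := by
      rw [← map_mul]; rfl
    rw [this]; exact mul_mem ihx ihy

theorem TInf_jd (N : ℕ) [NeZero N] [Cond N] {d : ℕ} (hd : d ∣ N) [NeZero (d * N)] :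
    TInf N ⟨jd d, Btil_le_perSub N (jd_mem_Btil hd)⟩ =
      ModularCurve.qExpand ℂ (d * N) (ModularCurve.jqModC ℂ) :=
  Fermat.Agent.S24.TInf_jd N hd

theorem b10_rootU_add (D : ℕ) (x y : ℤ) :
    ((rootU D (x + y) : ℂˣ) : ℂ) = ((rootU D x : ℂˣ) : ℂ) * ((rootU D y : ℂˣ) : ℂ) := by
  show Complex.exp (2 * Real.pi * Complex.I * ((x + y : ℤ) : ℂ) / D) =
    Complex.exp (2 * Real.pi * Complex.I * x / D) * Complex.exp (2 * Real.pi * Complex.I * y / D)
  rw [← Complex.exp_add]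
  congr 1
  push_cast
  ring

theorem b10_rootU_eq_one_iff (D : ℕ) [NeZero D] (k : ℤ) :
    ((rootU D k : ℂˣ) : ℂ) = 1 ↔ ((k : ℤ) : ZMod D) = 0 := by
  have hD : (D : ℂ) ≠ 0 := Nat.cast_ne_zero.2 (NeZero.ne D)
  rw [CharP.intCast_eq_zero_iff (ZMod D) D]
  show Complex.exp (2 * Real.pi * Complex.I * k / D) = 1 ↔ _
  rw [Complex.exp_eq_one_iff]
  constructor
  · rintro ⟨n, hn⟩
    refine ⟨n, ?_⟩
    have h2 : (2 * Real.pi * Complex.I : ℂ) ≠ 0 := Complex.two_pi_I_ne_zero
    have h3 : (k : ℂ) = D * n := by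
      field_simp at hn
      exact hn
    exact_mod_cast h3
  · rintro ⟨n, rfl⟩
    refine ⟨n, ?_⟩
    push_cast
    field_simp

/-- orthogonality. -/
theorem b10_orth (D : ℕ) [NeZero D] (k : ℤ) :
    ∑ a : ZMod D, ((rootU D ((a.val : ℤ) * k) : ℂˣ) : ℂ) = if ((k : ℤ) : ZMod D) = 0 then (D : ℂ) else 0 := by
  split_ifs with h
  · have h1 : ∀ a : ZMod D, ((rootU D ((a.val : ℤ) * k) : ℂˣ) : ℂ) = 1 := by
      intro a
      rw [b10_rootU_eq_one_iff]
      push_cast
      rw [h, mul_zero]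
    simp only [h1, Finset.sum_const, Finset.card_univ, ZMod.card, nsmul_eq_mul, mul_one]
  · set S := ∑ a : ZMod D, ((rootU D ((a.val : ℤ) * k) : ℂˣ) : ℂ) with hS
    have h1 : ((rootU D k : ℂˣ) : ℂ) * S = S := by
      calc ((rootU D k : ℂˣ) : ℂ) * S
          = ∑ a : ZMod D, ((rootU D ((((Equiv.addRight (1 : ZMod D)) a).val : ℤ) * k) : ℂˣ) : ℂ) := by
            rw [hS, Finset.mul_sum]
            refine Finset.sum_congr rfl fun a _ => ?_
            rw [← b10_rootU_add]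
            congr 1
            apply b3c_rootU_congr
            simp only [Equiv.coe_addRight]
            push_cast
            rw [ZMod.natCast_zmod_val, ZMod.natCast_zmod_val]
            ring
        _ = S := Equiv.sum_comp (Equiv.addRight (1 : ZMod D))
            (fun a => ((rootU D ((a.val : ℤ) * k) : ℂˣ) : ℂ))
    have h2 : (((rootU D k : ℂˣ) : ℂ) - 1) * S = 0 := by rw [sub_mul, h1, one_mul, sub_self]
    rcases mul_eq_zero.1 h2 with h3 | h3
    · exact absurd ((b10_rootU_eq_one_iff D k).1 (sub_eq_zero.1 h3)) h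
    · exact h3


theorem b10_orth' (D : ℕ) [NeZero D] (b : ZMod D) (k : ℤ) :
    ∑ a : ZMod D, ((rootU D (-((a.val : ℤ) * (b.val : ℤ))) : ℂˣ) : ℂ) *
      ((rootU D ((a.val : ℤ) * k) : ℂˣ) : ℂ) = if ((k : ℤ) : ZMod D) = b then (D : ℂ) else 0 := by
  have h1 : ∀ a : ZMod D, ((rootU D (-((a.val : ℤ) * (b.val : ℤ))) : ℂˣ) : ℂ) *
      ((rootU D ((a.val : ℤ) * k) : ℂˣ) : ℂ) =
      ((rootU D ((a.val : ℤ) * (k - (b.val : ℤ))) : ℂˣ) : ℂ) := by
    intro a
    rw [← b10_rootU_add]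
    congr 2
    ring
  simp only [h1, b10_orth]
  have h2 : (((k - (b.val : ℤ) : ℤ)) : ZMod D) = 0 ↔ ((k : ℤ) : ZMod D) = b := by
    push_cast
    rw [ZMod.natCast_zmod_val, sub_eq_zero]
  simp only [h2]

/-- the coefficients of `T_b` with respect to `q_D`. -/
noncomputable def b10c (D : ℕ) [NeZero D] (b : ZMod D) (n : ℕ) : ℂ :=
  (1 / (D : ℂ)) * ∑ a : ZMod D, ((rootU D (-((a.val : ℤ) * (b.val : ℤ))) : ℂˣ) : ℂ) *
    gCoeff D ![0, a] n

theorem b10c_zero (D : ℕ) [NeZero D] (b : ZMod D) : b10c D b 0 = ((c0 D b : ℚ) : ℂ) := by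
  have hD : (D : ℂ) ≠ 0 := Nat.cast_ne_zero.2 (NeZero.ne D)
  unfold b10c gCoeff
  simp only [if_true, Matrix.cons_val_zero, Matrix.cons_val_one, Finset.mul_sum]
  rw [Finset.sum_comm]
  have h1 : ∀ y : ZMod D, ∑ x : ZMod D, 1 / (D : ℂ) *
      (((rootU D (-((x.val : ℤ) * (b.val : ℤ))) : ℂˣ) : ℂ) *
        (((rootU D ((x.val : ℤ) * (y.val : ℤ)) : ℂˣ) : ℂ) * ((c0 D y : ℚ) : ℂ))) =
      if y = b then ((c0 D y : ℚ) : ℂ) else 0 := by
    intro y
    have h2 := b10_orth' D b (y.val : ℤ)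
    have h3 : (((y.val : ℤ) : ℤ) : ZMod D) = y := by
      push_cast
      exact ZMod.natCast_zmod_val y
    rw [h3] at h2
    calc _ = 1 / (D : ℂ) * ((c0 D y : ℚ) : ℂ) *
          ∑ x : ZMod D, ((rootU D (-((x.val : ℤ) * (b.val : ℤ))) : ℂˣ) : ℂ) *
            ((rootU D ((x.val : ℤ) * (y.val : ℤ)) : ℂˣ) : ℂ) := by
          rw [Finset.mul_sum]
          refine Finset.sum_congr rfl fun x _ => ?_
          ring
      _ = _ := by
          rw [h2]
          split_ifs
          · field_simp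
          · rw [mul_zero]
  simp only [h1, Finset.sum_ite_eq', Finset.mem_univ, if_true]


theorem b10c_pos (D : ℕ) [NeZero D] (b : ZMod D) {n : ℕ} (hn : n ≠ 0) :
    b10c D b n = ∑ m ∈ n.divisors, (if D ∣ n / m then
      ((if (m : ZMod D) = b then (m : ℂ) ^ 3 else 0) + (if (m : ZMod D) = -b then (m : ℂ) ^ 3 else 0))
      else 0) := by
  have hD : (D : ℂ) ≠ 0 := Nat.cast_ne_zero.2 (NeZero.ne D)
  unfold b10c gCoeff
  simp only [if_neg hn, Matrix.cons_val_zero, Matrix.cons_val_one, Finset.mul_sum, neg_zero]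
  rw [Finset.sum_comm]
  refine Finset.sum_congr rfl fun m _ => ?_
  by_cases h : D ∣ n / m
  · have h' : ((n / m : ℕ) : ZMod D) = 0 := (ZMod.natCast_eq_zero_iff _ _).2 h
    simp only [if_pos h, if_pos h']
    have h1 := b10_orth' D b (m : ℤ)
    have h2 := b10_orth' D b (-(m : ℤ))
    have e1 : (((m : ℤ) : ℤ) : ZMod D) = (m : ZMod D) := by push_cast; rfl
    have e2 : (((-(m : ℤ) : ℤ)) : ZMod D) = b ↔ (m : ZMod D) = -b := by
      push_cast
      exact neg_eq_iff_eq_neg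
    rw [e1] at h1
    simp only [e2] at h2
    calc _ = 1 / (D : ℂ) * (m : ℂ) ^ 3 *
          ((∑ x : ZMod D, ((rootU D (-((x.val : ℤ) * (b.val : ℤ))) : ℂˣ) : ℂ) *
            ((rootU D ((x.val : ℤ) * (m : ℤ)) : ℂˣ) : ℂ)) +
          ∑ x : ZMod D, ((rootU D (-((x.val : ℤ) * (b.val : ℤ))) : ℂˣ) : ℂ) *
            ((rootU D ((x.val : ℤ) * (-(m : ℤ))) : ℂˣ) : ℂ)) := by
          rw [← Finset.sum_add_distrib, Finset.mul_sum]
          refine Finset.sum_congr rfl fun x _ => ?_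
          rw [mul_neg]
          try simp only [h', if_true]
          ring
      _ = _ := by
          rw [h1, h2]
          split_ifs <;> field_simp <;> ring
  · have h' : ¬ ((n / m : ℕ) : ZMod D) = 0 := fun h2 => h ((ZMod.natCast_eq_zero_iff _ _).1 h2)
    simp only [if_neg h, h', if_false, add_zero, mul_zero, Finset.sum_const_zero]

theorem b10c_eq (D : ℕ) [NeZero D] (b : ZMod D) (n : ℕ) :
    b10c D b n = if D ∣ n then (((tNum D b).coeff (n / D) : ℚ) : ℂ) else 0 := by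
  have hD0 : 0 < D := Nat.pos_of_ne_zero (NeZero.ne D)
  rcases eq_or_ne n 0 with rfl | hn
  · rw [if_pos (dvd_zero _), b10c_zero, Nat.zero_div, tNum, PowerSeries.coeff_mk, if_pos rfl]
  rw [b10c_pos D b hn]
  split_ifs with h
  · obtain ⟨n', rfl⟩ := h
    have hn' : n' ≠ 0 := by
      rintro rfl
      exact hn (mul_zero _)
    rw [Nat.mul_div_cancel_left _ hD0, tNum, PowerSeries.coeff_mk, if_neg hn', sig,
      ← Finset.sum_filter]
    have hset : (D * n').divisors.filter (fun m => D ∣ D * n' / m) = n'.divisors := by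
      ext m
      simp only [Finset.mem_filter, Nat.mem_divisors]
      constructor
      · rintro ⟨⟨h1, _⟩, t, ht⟩
        refine ⟨⟨t, ?_⟩, hn'⟩
        have h2 : D * n' = m * (D * t) := by rw [← ht, Nat.mul_div_cancel' h1]
        exact Nat.eq_of_mul_eq_mul_left hD0 (by rw [h2]; ring)
      · rintro ⟨⟨t, rfl⟩, _⟩
        have hm : 0 < m := Nat.pos_of_ne_zero (by rintro rfl; exact hn' (zero_mul _))
        refine ⟨⟨⟨D * t, by ring⟩, hn⟩, ⟨t, ?_⟩⟩
        rw [show D * (m * t) = m * (D * t) by ring, Nat.mul_div_cancel_left _ hm]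
    rw [hset]
    push_cast
    refine Finset.sum_congr rfl fun x _ => ?_
    split_ifs <;> simp
  · refine Finset.sum_eq_zero fun m hm => ?_
    rw [if_neg]
    intro h2
    exact h (h2.trans (Nat.div_dvd_of_dvd (Nat.dvd_of_mem_divisors hm)))


/-- the function `T_b`. -/
noncomputable def b10T (D : ℕ) [NeZero D] (b : ZMod D) : ℍ → ℂ :=
  (fun _ => 1 / (D : ℂ)) * ∑ a : ZMod D,
    (fun _ => ((rootU D (-((a.val : ℤ) * (b.val : ℤ))) : ℂˣ) : ℂ)) * G4n D ![0, a]

theorem b10T_apply (D : ℕ) [NeZero D] (b : ZMod D) (z : ℍ) :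
    b10T D b z = (1 / (D : ℂ)) * ∑ a : ZMod D,
      ((rootU D (-((a.val : ℤ) * (b.val : ℤ))) : ℂˣ) : ℂ) * G4n D ![0, a] z := by
  simp [b10T, Finset.sum_apply]

theorem b10_isBd (D : ℕ) [NeZero D] (b : ZMod D) : IsBd D (b10T D b) := by
  refine (isBd_const D _).mul ?_
  exact Finset.sum_induction _ (IsBd D) (fun _ _ => IsBd.add) (isBd_zero D)
    (fun a _ => (isBd_const D _).mul (isBd_G4n D _))

theorem b10_hasSum (D : ℕ) [NeZero D] (b : ZMod D) (z : ℍ) :
    HasSum (fun n : ℕ => b10c D b n • Function.Periodic.qParam D z ^ n) (b10T D b z) := by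
  rw [b10T_apply]
  have h := (hasSum_sum (s := Finset.univ) (fun (a : ZMod D) _ => (hasSum_G4n D ![0, a] z).mul_left
    (((rootU D (-((a.val : ℤ) * (b.val : ℤ))) : ℂˣ) : ℂ)))).mul_left (1 / (D : ℂ))
  have e : (fun n : ℕ => b10c D b n • Function.Periodic.qParam D z ^ n) = fun i =>
      1 / (D : ℂ) * ∑ a : ZMod D, ((rootU D (-((a.val : ℤ) * (b.val : ℤ))) : ℂˣ) : ℂ) *
        gCoeff D ![0, a] i • Function.Periodic.qParam D z ^ i := by
    funext n
    unfold b10c
    rw [smul_eq_mul, mul_assoc, Finset.sum_mul]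
    congr 1
    refine Finset.sum_congr rfl fun a _ => ?_
    rw [smul_eq_mul, mul_assoc]
  rw [e]
  exact h

theorem b10_coeff (D : ℕ) [NeZero D] (b : ZMod D) (n : ℕ) :
    (qExpansion D (b10T D b)).coeff n =
      if D ∣ n then (((tNum D b).coeff (n / D) : ℚ) : ℂ) else 0 := by
  rw [expA_unique (b10_isBd D b) (b10_hasSum D b) n, b10c_eq]

theorem b10_series (D : ℕ) [NeZero D] (b : ZMod D) :
    HahnSeries.ofPowerSeries ℤ ℂ (qExpansion D (b10T D b)) =
      ModularCurve.qExpand ℂ D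
        (HahnSeries.ofPowerSeries ℤ ℂ ((tNum D b).map (algebraMap ℚ ℂ))) := by
  have hD0 : 0 < D := Nat.pos_of_ne_zero (NeZero.ne D)
  have hD' : (0 : ℤ) < (D : ℤ) := by exact_mod_cast hD0
  ext n
  rw [PowerSeries.coeff_coe]
  by_cases hkn : (D : ℤ) ∣ n
  · obtain ⟨j, rfl⟩ := hkn
    rw [ModularCurve.qExpand_coeff_mul, PowerSeries.coeff_coe]
    by_cases hj : j < 0
    · rw [if_pos hj, if_pos (mul_neg_of_pos_of_neg hD' hj)]
    · rw [if_neg hj, if_neg (by
        have : 0 ≤ j := not_lt.mp hj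
        have := mul_nonneg hD'.le this
        omega), b10_coeff]
      obtain ⟨i, rfl⟩ := Int.eq_ofNat_of_zero_le (not_lt.mp hj)
      have h1 : ((D : ℤ) * (i : ℤ)).natAbs = D * i := by
        rw [← Nat.cast_mul, Int.natAbs_natCast]
      rw [h1, if_pos (dvd_mul_right _ _), Nat.mul_div_cancel_left _ hD0, Int.natAbs_natCast,
        PowerSeries.coeff_map]
      rfl
  · rw [ModularCurve.qExpand_coeff_of_not_dvd _ _ hkn]
    split_ifs with h
    · rfl
    · rw [b10_coeff, if_neg]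
      intro hd
      apply hkn
      have : (n.natAbs : ℤ) = n := Int.natAbs_of_nonneg (not_lt.mp h)
      rw [← this]
      exact_mod_cast hd


theorem b10_map_rat (p : PowerSeries ℚ) :
    (p.map (algebraMap ℚ Kb)).map iotaK = p.map (algebraMap ℚ ℂ) := by
  ext n
  rw [PowerSeries.coeff_map, PowerSeries.coeff_map, PowerSeries.coeff_map]
  exact congrFun (congrArg DFunLike.coe
    (RingHom.ext_rat (iotaK.comp (algebraMap ℚ Kb)) (algebraMap ℚ ℂ))) _

theorem b10_map_int (p : PowerSeries ℤ) :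
    (p.map (Int.castRingHom ℚ)).map (algebraMap ℚ ℂ) = p.map (Int.castRingHom ℂ) := by
  ext n
  rw [PowerSeries.coeff_map, PowerSeries.coeff_map, PowerSeries.coeff_map]
  simp

theorem b10_formal (D : ℕ) (b : ZMod D) :
    ModularCurve.coeffMap iotaK (ModularCurve.coeffEmb Kb (Tq D b)) *
      HahnSeries.ofPowerSeries ℤ ℂ (qExpansion 1 discriminant) =
    HahnSeries.ofPowerSeries ℤ ℂ ((tNum D b).map (algebraMap ℚ ℂ)) *
      HahnSeries.ofPowerSeries ℤ ℂ (qExpansion 1 E₄) ^ 2 := by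
  rw [Fermat.Agent.S28.qExpansion_discriminant, Fermat.Agent.S28.qExpansion_E4, Tq,
    ModularCurve.coeffEmb, map_mul, map_mul, ModularCurve.coeffMap_single,
    ModularCurve.coeffMap_single, map_one, map_one, ModularCurve.coeffMap_ofPowerSeries,
    ModularCurve.coeffMap_ofPowerSeries, b10_map_rat, map_mul, b10_map_int, map_mul, map_mul,
    map_mul, map_mul, map_pow, map_pow, HahnSeries.ofPowerSeries_X]
  have h1 : HahnSeries.ofPowerSeries ℤ ℂ
        (PowerSeries.map (Int.castRingHom ℂ) ModularCurve.dedekindEtaUnitInv) *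
      HahnSeries.ofPowerSeries ℤ ℂ
        (PowerSeries.map (Int.castRingHom ℂ) ModularCurve.dedekindEtaUnit) = 1 := by
    rw [← map_mul, ← map_mul, mul_comm, ModularCurve.dedekindEtaUnit_mul_inv, map_one, map_one]
  have h2 : (HahnSeries.single (-1 : ℤ) (1 : ℂ)) * HahnSeries.single (1 : ℤ) (1 : ℂ) = 1 := by
    rw [HahnSeries.single_mul_single]
    simp
  calc _ = (HahnSeries.single (-1 : ℤ) (1 : ℂ) * HahnSeries.single (1 : ℤ) (1 : ℂ)) *
        (HahnSeries.ofPowerSeries ℤ ℂ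
          (PowerSeries.map (Int.castRingHom ℂ) ModularCurve.dedekindEtaUnitInv) *
        HahnSeries.ofPowerSeries ℤ ℂ
          (PowerSeries.map (Int.castRingHom ℂ) ModularCurve.dedekindEtaUnit)) *
        (HahnSeries.ofPowerSeries ℤ ℂ ((tNum D b).map (algebraMap ℚ ℂ)) *
        HahnSeries.ofPowerSeries ℤ ℂ
          (PowerSeries.map (Int.castRingHom ℂ) ModularCurve.eisenstein4) ^ 2) := by ring
    _ = _ := by rw [h1, h2, one_mul, one_mul]

theorem b10_tb (D : ℕ) [NeZero D] (b : ZMod D) (z : ℍ) :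
    tb D b z * discriminant z = b10T D b z * E₄ z ^ 2 := by
  rw [tb, b10T_apply, mul_assoc, mul_assoc, Finset.sum_mul, Finset.sum_mul]
  congr 1
  refine Finset.sum_congr rfl fun a _ => ?_
  rw [yv, mul_assoc, mul_assoc, div_mul_cancel₀ _ (discriminant_ne_zero _)]

theorem b10_main {N D e : ℕ} [NeZero N] [NeZero D] (he : e * D ∣ N) (b : ZMod D)
    [NeZero (e * N)] (hmem : te D e b ∈ perSub N) :
    TInf N ⟨te D e b, hmem⟩ =
      ModularCurve.qExpand ℂ (e * N)
        (ModularCurve.coeffMap iotaK (ModularCurve.coeffEmb Kb (Tq D b))) := by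
  have hN : 0 < N := Nat.pos_of_ne_zero (NeZero.ne N)
  have hD0 : 0 < D := Nat.pos_of_ne_zero (NeZero.ne D)
  have he0 : 0 < e := Nat.pos_of_ne_zero (by
    rintro rfl
    rw [zero_mul] at he
    exact NeZero.ne N (Nat.eq_zero_of_zero_dvd he))
  have hDN : 1 * D ∣ N := by rw [one_mul]; exact (Dvd.intro_left e rfl).trans he
  have h1N : 1 ∣ N := one_dvd N
  have hE : IsBd N (pre e 0 1 E₄) := isBd_pre expandC_isBd_E4 he0 one_pos h1N
  have hΔ : IsBd N (pre e 0 1 discriminant) := isBd_pre (isBd_discriminant 1) he0 one_pos h1N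
  have hT : IsBd N (pre e 0 1 (b10T D b)) := isBd_preD (b10_isBd D b) he0 one_pos hDN
  have hmul : (⟨te D e b, hmem⟩ : perSub N) * ⟨pre e 0 1 discriminant, hΔ.isPer⟩ =
      ⟨pre e 0 1 (b10T D b), hT.isPer⟩ * ⟨pre e 0 1 E₄, hE.isPer⟩ ^ 2 := by
    apply Subtype.ext
    funext z
    show te D e b z * pre e 0 1 discriminant z = pre e 0 1 (b10T D b) z * pre e 0 1 E₄ z ^ 2
    simp only [te, pre]
    exact b10_tb D b _
  have i1 : NeZero (e * (N / 1)) := ⟨by rw [Nat.div_one]; exact NeZero.ne _⟩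
  have i2 : NeZero (e * (N / (1 * D))) :=
    ⟨(Nat.mul_pos he0 (Nat.div_pos (Nat.le_of_dvd hN hDN) (by omega))).ne'⟩
  have h1 := congrArg (TInf N) hmul
  rw [map_mul, map_mul, map_pow, TInf_of_isBd N ⟨pre e 0 1 discriminant, hΔ.isPer⟩ hΔ,
    TInf_of_isBd N ⟨pre e 0 1 E₄, hE.isPer⟩ hE,
    TInf_of_isBd N ⟨pre e 0 1 (b10T D b), hT.isPer⟩ hT] at h1
  simp only at h1
  have k1 : e * (N / 1) = e * N := by rw [Nat.div_one]
  have k2 : e * (N / (1 * D)) * D = e * N := by
    rw [mul_assoc, one_mul, Nat.div_mul_cancel ((Dvd.intro_left e rfl).trans he)]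
  have i3 : NeZero (e * (N / (1 * D)) * D) := ⟨by rw [k2]; exact NeZero.ne _⟩
  have hXΔ : HahnSeries.ofPowerSeries ℤ ℂ (qExpansion N (pre e 0 1 discriminant)) =
      ModularCurve.qExpand ℂ (e * N) (HahnSeries.ofPowerSeries ℤ ℂ (qExpansion 1 discriminant)) := by
    rw [qExpansion_pre (isBd_discriminant 1) he0 one_pos h1N, Nat.cast_zero, expandC_rootU_zero,
      twist_one]
    exact ModularCurve.qExpand_congr k1 _
  have hXE : HahnSeries.ofPowerSeries ℤ ℂ (qExpansion N (pre e 0 1 E₄)) =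
      ModularCurve.qExpand ℂ (e * N) (HahnSeries.ofPowerSeries ℤ ℂ (qExpansion 1 E₄)) := by
    rw [qExpansion_pre expandC_isBd_E4 he0 one_pos h1N, Nat.cast_zero, expandC_rootU_zero,
      twist_one]
    exact ModularCurve.qExpand_congr k1 _
  have hXT : HahnSeries.ofPowerSeries ℤ ℂ (qExpansion N (pre e 0 1 (b10T D b))) =
      ModularCurve.qExpand ℂ (e * N)
        (HahnSeries.ofPowerSeries ℤ ℂ ((tNum D b).map (algebraMap ℚ ℂ))) := by
    rw [qExpansion_preD (b10_isBd D b) he0 one_pos hDN, Nat.cast_zero, expandC_rootU_zero,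
      twist_one, b10_series, ModularCurve.qExpand_qExpand]
    exact ModularCurve.qExpand_congr k2 _
  rw [hXΔ, hXE, hXT, ← map_pow, ← map_mul, ← b10_formal, map_mul] at h1
  refine mul_right_cancel₀ ?_ h1
  rw [← hXΔ]
  intro h0
  have h2 := (tinfE_eq_zero_iff hΔ).mp h0
  exact discriminant_ne_zero _ (congrFun h2 I)

/-- **T24-B10** (the expansion of `t_b (e z)` at `∞`).  `te = ∑_a (ζ^{-ab}/D) pre e 0 1 y_{(0,a)}`;
`TInf (pre e 0 1 y_v) * TInf (pre e 0 1 Δ) = TInf (pre e 0 1 G_v) * TInf (pre e 0 1 E₄)^2`; `qExpansion_preD` (`a = e`, `b = 0`, `δ = 1`), `qExpansion_G4n`;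
orthogonality: `(1/D) ∑_a ζ^{-ab} gCoeff (0,a) n` is `0` unless `D ∣ n`, and equals `c0 D b` (`n = 0`), `sig D b (n/D)`. -/
theorem TInf_te (N : ℕ) [NeZero N] [Cond N] {e : ℕ} (he : e * Cond.D N ∣ N) (b : ZMod (Cond.D N))
    [NeZero (e * N)] :
    TInf N ⟨te (Cond.D N) e b, Btil_le_perSub N (te_mem_Btil he b)⟩ =
      ModularCurve.qExpand ℂ (e * N)
        (ModularCurve.coeffMap iotaK (ModularCurve.coeffEmb Kb (Tq (Cond.D N) b))) :=
  b10_main he b _

/-- **T24-B11.**  `te D 1 b = te D 1 1` implies `b = ± 1`: by `TInf_te` and injectivity (`qExpand_injective`, `coeffMap`, `coeffEmb`) `Tq D b = Tq D 1`,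
cancel the unit `q⁻¹ E₄² / η`-factor, compare the coefficients of `q`: `sig D b 1 = [b = 1] + [b = -1]`. -/
theorem eq_one_or_of_te_eq (N : ℕ) [NeZero N] [Cond N] (b : ZMod (Cond.D N))
    (h : te (Cond.D N) 1 b = te (Cond.D N) 1 1) : b = 1 ∨ b = -1 := by
  have he : 1 * Cond.D N ∣ N := by rw [one_mul]; exact Cond.dvd
  have : NeZero (1 * N) := ⟨by rw [one_mul]; exact NeZero.ne N⟩
  have h1 := TInf_te N he b
  have h2 := TInf_te N he 1
  rw [expandC_TInf_congr N h _ (Btil_le_perSub N (te_mem_Btil he 1)), h2] at h1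
  have h3 : Tq (Cond.D N) 1 = Tq (Cond.D N) b :=
    phi_coeffMap_injective _ (algebraMap ℚ Kb).injective
      (phi_coeffMap_injective _ iotaK.injective (ModularCurve.qExpand_injective _ h1))
  unfold Tq at h3
  have hs : (HahnSeries.single (-1 : ℤ) (1 : ℚ)) ≠ 0 := by
    rw [Ne, HahnSeries.single_eq_zero_iff]; exact one_ne_zero
  have h4 := HahnSeries.ofPowerSeries_injective (mul_left_cancel₀ hs h3)
  have hU : ((ModularCurve.eisenstein4 ^ 2 * ModularCurve.dedekindEtaUnitInv).map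
      (Int.castRingHom ℚ)) ≠ 0 := by
    intro h0
    have := congrArg PowerSeries.constantCoeff h0
    rw [← PowerSeries.coeff_zero_eq_constantCoeff_apply, PowerSeries.coeff_map,
      PowerSeries.coeff_zero_eq_constantCoeff_apply, map_mul, map_pow,
      ModularCurve.constantCoeff_eisenstein4, ModularCurve.constantCoeff_dedekindEtaUnitInv] at this
    simp at this
  have h5 := mul_right_cancel₀ hU h4
  have h6 := congrArg (PowerSeries.coeff 1) h5
  simp only [tNum, PowerSeries.coeff_mk, one_ne_zero, if_false] at h6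
  have h7 : sig (Cond.D N) 1 1 = sig (Cond.D N) b 1 := by exact_mod_cast h6
  simp only [sig, Nat.divisors_one, Finset.sum_singleton, Nat.cast_one, one_pow, if_true] at h7
  by_contra hcon
  rw [not_or] at hcon
  have e1 : ¬ (1 : ZMod (Cond.D N)) = b := fun e => hcon.1 e.symm
  have e2 : ¬ (1 : ZMod (Cond.D N)) = -b := fun e => hcon.2 (by rw [e, neg_neg])
  simp only [if_neg e1, if_neg e2] at h7
  omega

/-- the stabiliser of `j (N z)` and `t_1` is `Gam N`. -/
theorem mem_Gam_of_act_eq (N : ℕ) [NeZero N] [Cond N] (g : SL(2, ℤ)) (h : act g (jd N) = jd N)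
    (h' : act g (te (Cond.D N) 1 1) = te (Cond.D N) 1 1) : g ∈ Gam N := by
  have hg : g ∈ Gamma0 N := mem_Gamma0_of_act_jd_eq N g h
  refine ⟨hg, ?_⟩
  rw [act_te (by rw [one_mul]; exact Cond.dvd) 1 g hg, one_mul] at h'
  exact eq_one_or_of_te_eq N _ h'

/-- **T24-B12.**  `Gamma N ≤ Gam N` and `Gamma N` has finite index. -/
instance finiteIndex_Gam (N : ℕ) [NeZero N] [Cond N] : (Gam N).FiniteIndex := by
  have hle : Gamma1 N ≤ Gam N := by
    intro g hg
    rw [Gamma1_mem] at hg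
    refine ⟨by rw [Gamma0_mem]; exact hg.2.2, Or.inl ?_⟩
    have h2 := congrArg (ZMod.castHom (Cond.dvd (N := N)) (ZMod (Cond.D N))) hg.2.1
    rwa [map_intCast, map_one] at h2
  exact Subgroup.finiteIndex_of_le hle

instance finite_quot_Gam (N : ℕ) [NeZero N] [Cond N] : Finite (SL(2, ℤ) ⧸ Gam N) :=
  Subgroup.finite_quotient_of_finiteIndex

end Fermat.Agent.T24
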